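import Fermat.Agent.S26.Model.Basic

/-! # S26 : the tautological points `Spec O_a → A`, `Spec κ(a) → A`; residue fields are finitely generated. -/

set_option autoImplicit false

universe u

namespace Fermat.Agent.S26

open AlgebraicCurve IsLocalRing

namespace AVModel

variable {K : Type u} [Field K] {F : Type u} [Field F] [Algebra K F] (M : AVModel K F)

theorem exists_taut (a : M.X) : ∃ x : M.Pt (M.O a), M.ctr x = a ∧ ∀ r : M.O a, M.ev x r = r :=
  M.exists_pt a (AlgHom.id K (M.O a)) ⟨fun _ hr => hr⟩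

/-- the tautological point `Spec O_a → A` -/
noncomputable def taut (a : M.X) : M.Pt (M.O a) := (M.exists_taut a).choose

theorem ctr_taut (a : M.X) : M.ctr (M.taut a) = a := (M.exists_taut a).choose_spec.1

theorem ev_taut (a : M.X) (r : M.O a) : M.ev (M.taut a) r = r := (M.exists_taut a).choose_spec.2 r

section

variable {R : Type u} [CommRing R] [Algebra K R] [IsLocalRing R] {a : M.X}

theorem le_ctr_map_taut (φ : M.O a →ₐ[K] R) : M.O a ≤ M.O (M.ctr (M.map φ (M.taut a))) := by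
  have := M.ctr_map_le φ (M.taut a)
  rwa [M.ctr_taut] at this

theorem ev_map_taut (φ : M.O a →ₐ[K] R) (r : M.O a) : M.ev (M.map φ (M.taut a)) r = φ r := by
  rw [M.ev_map φ (M.taut a) r (by rw [M.ctr_taut]; exact r.2), M.ev_taut]

theorem ctr_map_taut (φ : M.O a →ₐ[K] R) (hφ : ∀ r, IsUnit (φ r) → IsUnit r) :
    M.ctr (M.map φ (M.taut a)) = a := by
  rw [M.ctr_map_of_isLocalHom φ hφ, M.ctr_taut]

end

theorem map_val_taut (a : M.X) : M.map (M.O a).val (M.taut a) = M.eta := by
  have h := M.O_ctr_eq_top_of_ev_eq (M.map (M.O a).val (M.taut a)) a (M.le_ctr_map_taut _)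
    (fun r hr => M.ev_map_taut (M.O a).val ⟨r, hr⟩)
  apply M.pt_ext
  · apply M.O_injective
    rw [h.1, M.ctr_eta, M.O_genPt]
  · intro r _
    rw [h.2, M.ev_eta]

/-- a `K`-homomorphism from the local ring of the origin to a field which kills the maximal ideal
gives the zero point. -/
theorem map_taut_eq_zero {Ω : Type u} [Field Ω] [Algebra K Ω]
    (ψ : M.O (M.ctr (0 : M.Pt K)) →ₐ[K] Ω) (hψ : ∀ r, ¬ IsUnit r → ψ r = 0) :
    M.map ψ (M.taut _) = 0 := by
  have h1 : ψ = (Algebra.ofId K Ω).comp (M.evHom (0 : M.Pt K)) := by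
    ext r
    set c : K := M.evHom (0 : M.Pt K) r with hc
    have h2 : M.evHom (0 : M.Pt K) (r - algebraMap K _ c) = 0 := by
      rw [_root_.map_sub, AlgHom.commutes, ← hc]
      simp
    have h3 : ¬ IsUnit (r - algebraMap K _ c) := by
      intro hu
      have := hu.map (M.evHom (0 : M.Pt K))
      rw [h2] at this
      exact not_isUnit_zero this
    have h4 := hψ _ h3
    rw [_root_.map_sub, AlgHom.commutes, sub_eq_zero] at h4
    rw [h4]
    rfl
  have h2 : M.map (M.evHom (0 : M.Pt K)) (M.taut _) = 0 := by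
    have hc : M.ctr (M.map (M.evHom (0 : M.Pt K)) (M.taut _)) = M.ctr (0 : M.Pt K) :=
      M.ctr_map_taut _ (fun r hr => (M.isLocalHom_evHom (0 : M.Pt K)).map_nonunit r hr)
    apply M.pt_ext _ _ hc
    intro r hr
    rw [hc] at hr
    exact M.ev_map_taut _ ⟨r, hr⟩
  rw [h1, M.map_comp, h2, M.map_zero]

theorem dim_ctr_zero : M.dim (M.ctr (0 : M.Pt K)) = 0 := by
  have h1 := M.trdeg_fd (0 : M.Pt K)
  have h2 : Algebra.trdeg K (M.fd (0 : M.Pt K)) ≤ Algebra.trdeg K K :=
    trdeg_le_of_injective (M.fd (0 : M.Pt K)).val (M.fd (0 : M.Pt K)).val.toRingHom.injective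
  rw [h1, (trdeg_eq_zero : Algebra.trdeg K K = 0)] at h2
  have : M.dim (M.ctr (0 : M.Pt K)) ≤ 0 := by exact_mod_cast h2
  exact Nat.le_zero.mp this

/-! ### residue fields -/

theorem exists_ptOf (a : M.X) : ∃ x : M.Pt (ResidueField (M.O a)), M.ctr x = a ∧
    ∀ r : M.O a, M.ev x r = residue _ r := by
  refine ⟨M.map (M.resHom a) (M.taut a), M.ctr_map_taut _ ?_, fun r => M.ev_map_taut _ r⟩
  intro r hr
  by_contra hu
  exact hr.ne_zero ((M.resHom_eq_zero_iff a r).mpr hu)

instance essFiniteType_residueField (a : M.X) : Algebra.EssFiniteType K (ResidueField (M.O a)) := by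
  classical
  obtain ⟨R₀, hfg, -, q, hq, hqa⟩ := M.exists_chart a
  have hR₀ : R₀ ≤ M.O a := fun r hr =>
    (hqa r).mpr ⟨⟨r, hr⟩, 1, fun h1 => hq.ne_top ((Ideal.eq_top_iff_one q).mpr h1), by simp⟩
  have hunit : ∀ t : R₀, t ∉ q → (t : F) ≠ 0 ∧ (t : F)⁻¹ ∈ M.O a := by
    intro t ht
    have ht0 : (t : F) ≠ 0 := by
      intro h0
      apply ht
      have : t = 0 := Subtype.ext h0
      rw [this]; exact zero_mem q
    exact ⟨ht0, (hqa _).mpr ⟨1, t, ht, by simp [ht0]⟩⟩
  let f : R₀ →ₐ[K] ResidueField (M.O a) := (M.resHom a).comp (Subalgebra.inclusion hR₀)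
  have hft : Algebra.FiniteType K R₀ := (Subalgebra.fg_iff_finiteType R₀).mp hfg
  obtain ⟨G, hG⟩ := hft.out
  rw [Algebra.essFiniteType_iff]
  refine ⟨G.image f, fun x => ?_⟩
  have hrange : ∀ t : R₀, f t ∈ Algebra.adjoin K ((G.image f : Finset _) : Set (ResidueField (M.O a))) := by
    intro t
    have h1 : t ∈ Algebra.adjoin K (G : Set R₀) := by rw [hG]; trivial
    have h2 : f t ∈ (Algebra.adjoin K (G : Set R₀)).map f := ⟨t, h1, rfl⟩
    rw [AlgHom.map_adjoin] at h2
    simpa using h2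
  obtain ⟨r, rfl⟩ := M.resHom_surjective a x
  obtain ⟨s, t, ht, hrt⟩ := (hqa r).mp r.2
  refine ⟨f t, hrange t, ?_, ?_⟩
  · have : IsUnit (Subalgebra.inclusion hR₀ t) := (isUnit_subalgebra_iff _).mpr (hunit t ht)
    exact this.map (M.resHom a)
  · have : M.resHom a r * f t = f s := by
      change M.resHom a r * M.resHom a (Subalgebra.inclusion hR₀ t) = M.resHom a (Subalgebra.inclusion hR₀ s)
      rw [← map_mul]
      congr 1
      exact Subtype.ext hrt
    rw [this]
    exact hrange s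

end AVModel

end Fermat.Agent.S26
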