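import Fermat.Agent.S26.Model.Div
import Fermat.Agent.S26.FF.Transport

/-! # S26 / M8-a : transport of `z^* D` along an isomorphism of fields. -/

set_option autoImplicit false

universe u

namespace Fermat.Agent.S26

open AlgebraicCurve IsLocalRing

theorem restrictConst_placeMap {K Ω L L' : Type*} [Field K] [Field Ω] [Field L] [Field L'] [Algebra Ω L]
    [Algebra Ω L'] [Algebra K Ω] [Algebra K L] [Algebra K L'] [IsScalarTower K Ω L]
    [IsScalarTower K Ω L'] (e : L ≃ₐ[Ω] L') (Q : Place Ω L) :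
    (placeMap e Q).restrictConst K = placeMap (e.restrictScalars K) (Q.restrictConst K) := rfl

namespace AVModel

variable {K : Type u} [Field K] {F : Type u} [Field F] [Algebra K F] (M : AVModel K F)

variable {𝕃 𝕃' : Type u} [Field 𝕃] [Algebra K 𝕃] [Field 𝕃'] [Algebra K 𝕃']

theorem lift_placeMap (e : 𝕃 ≃ₐ[K] 𝕃') (z : M.Pt 𝕃) (Q : Place K 𝕃) :
    M.lift (placeMap e Q) (M.map e.toAlgHom z) = M.map (placeRingEquiv e Q).toAlgHom (M.lift Q z) := by
  apply M.lift_eq_map
  have h : (IsScalarTower.toAlgHom K (placeMap e Q).toValuationSubring 𝕃').comp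
      (placeRingEquiv e Q).toAlgHom = e.toAlgHom.comp (IsScalarTower.toAlgHom K Q.toValuationSubring 𝕃) := by
    ext x
    rfl
  rw [h, M.map_comp, M.map_lift]

theorem cen_placeMap (e : 𝕃 ≃ₐ[K] 𝕃') (z : M.Pt 𝕃) (Q : Place K 𝕃) :
    M.cen (placeMap e Q) (M.map e.toAlgHom z) = M.cen Q z := by
  unfold cen
  rw [M.lift_placeMap]
  apply M.ctr_map_of_isLocalHom
  intro r hr
  have := hr.map (placeRingEquiv e Q).symm
  rwa [show (placeRingEquiv e Q).symm ((placeRingEquiv e Q).toAlgHom r) = r from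
    (placeRingEquiv e Q).symm_apply_apply r] at this

theorem Dv_placeMap (ζ : M.X) (e : 𝕃 ≃ₐ[K] 𝕃') (z : M.Pt 𝕃) (Q : Place K 𝕃) :
    M.Dv ζ (M.map e.toAlgHom z) (placeMap e Q) = M.Dv ζ z Q := by
  unfold Dv
  rw [M.cen_placeMap, M.ctr_map_field, M.ev_map _ _ _ (M.locEq_div_mem (M.O_cen_le Q z)).1]
  exact ord_placeMap e Q _

theorem degree_divOf_map {Ω : Type u} [Field Ω] [Algebra K Ω] [Algebra Ω 𝕃] [IsScalarTower K Ω 𝕃]
    [FF1 Ω 𝕃] [Algebra Ω 𝕃'] [IsScalarTower K Ω 𝕃'] [FF1 Ω 𝕃'] (ζ : M.X) (e : 𝕃 ≃ₐ[Ω] 𝕃') (z : M.Pt 𝕃) :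
    Divisor.degree (M.divOf (Ω := Ω) ζ (M.map (e.toAlgHom.restrictScalars K) z))
      = Divisor.degree (M.divOf (Ω := Ω) ζ z) := by
  have key : M.divOf (Ω := Ω) ζ (M.map (e.toAlgHom.restrictScalars K) z)
      = Finsupp.equivMapDomain (placeEquiv e) (M.divOf (Ω := Ω) ζ z) := by
    ext Q
    rw [Finsupp.equivMapDomain_apply, divOf_apply, divOf_apply]
    have h := M.Dv_placeMap ζ (e.restrictScalars K) z (((placeEquiv e).symm Q).restrictConst K)
    rw [← restrictConst_placeMap] at h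
    have h2 : placeMap e ((placeEquiv e).symm Q) = Q := (placeEquiv e).apply_symm_apply Q
    rw [h2] at h
    exact h
  rw [key]
  induction M.divOf (Ω := Ω) ζ z using Finsupp.induction_linear with
  | zero => simp
  | add f g hf hg => rw [Finsupp.equivMapDomain_eq_mapDomain] at *; rw [Finsupp.mapDomain_add, _root_.map_add, _root_.map_add, hf, hg]
  | single a b =>
    rw [Finsupp.equivMapDomain_single, Divisor.degree_single, Divisor.degree_single, placeEquiv_apply,
      deg_placeMap]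

end AVModel

end Fermat.Agent.S26
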