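import Fermat.Agent.S26.Model.Defs
import Fermat.Agent.S26.FF.Defs
import Fermat.Agent.S26.Alg.Trdeg

/-! # S26 / M6a : basic API of an `AVModel` (complete). -/

set_option autoImplicit false

universe u

namespace Fermat.Agent.S26

open AlgebraicCurve IsLocalRing

namespace AVModel

variable {K : Type u} [Field K] {F : Type u} [Field F] [Algebra K F] (M : AVModel K F)

section functor

variable {R S : Type u} [CommRing R] [Algebra K R] [CommRing S] [Algebra K S]

/-- `A(φ)` as a group homomorphism. -/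
def mapHom (φ : R →ₐ[K] S) : M.Pt R →+ M.Pt S :=
  AddMonoidHom.mk' (M.map φ) (M.map_add φ)

@[simp] theorem mapHom_apply (φ : R →ₐ[K] S) (x : M.Pt R) : M.mapHom φ x = M.map φ x := rfl

theorem map_zero (φ : R →ₐ[K] S) : M.map φ 0 = 0 := (M.mapHom φ).map_zero
theorem map_neg (φ : R →ₐ[K] S) (x : M.Pt R) : M.map φ (-x) = -M.map φ x := (M.mapHom φ).map_neg x
theorem map_sub (φ : R →ₐ[K] S) (x y : M.Pt R) : M.map φ (x - y) = M.map φ x - M.map φ y :=
  (M.mapHom φ).map_sub x y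
theorem map_nsmul (φ : R →ₐ[K] S) (n : ℕ) (x : M.Pt R) : M.map φ (n • x) = n • M.map φ x :=
  (M.mapHom φ).map_nsmul n x

/-- base change along the structure map of an algebra in a tower -/
abbrev bc (R S : Type u) [CommRing R] [Algebra K R] [CommRing S] [Algebra K S] [Algebra R S]
    [IsScalarTower K R S] : M.Pt R → M.Pt S := M.map (IsScalarTower.toAlgHom K R S)

end functor

section local_

variable {R S : Type u} [CommRing R] [Algebra K R] [IsLocalRing R] [CommRing S] [Algebra K S]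
  [IsLocalRing S]

/-- the local homomorphism attached to a point with values in a local ring -/
def evHom (x : M.Pt R) : M.O (M.ctr x) →ₐ[K] R where
  toFun r := M.ev x r
  map_one' := by simpa using M.ev_algebraMap x 1
  map_mul' r s := M.ev_mul x r s r.2 s.2
  map_zero' := by simpa using M.ev_algebraMap x 0
  map_add' r s := M.ev_add x r s r.2 s.2
  commutes' c := M.ev_algebraMap x c

@[simp] theorem evHom_apply (x : M.Pt R) (r : M.O (M.ctr x)) : M.evHom x r = M.ev x r := rfl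

theorem ev_zero (x : M.Pt R) : M.ev x 0 = 0 := by simpa using M.ev_algebraMap x 0

theorem ev_one (x : M.Pt R) : M.ev x 1 = 1 := by simpa using M.ev_algebraMap x 1

omit M in
/-- units of a subalgebra of a field -/
theorem isUnit_subalgebra_iff {A : Subalgebra K F} (r : A) :
    IsUnit r ↔ (r : F) ≠ 0 ∧ (r : F)⁻¹ ∈ A := by
  constructor
  · intro h
    obtain ⟨s, hs⟩ := isUnit_iff_exists_inv.mp h
    have hs' : (r : F) * (s : F) = 1 := congrArg Subtype.val hs
    have hr0 : (r : F) ≠ 0 := left_ne_zero_of_mul_eq_one hs'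
    refine ⟨hr0, ?_⟩
    rw [← eq_inv_of_mul_eq_one_right hs']
    exact s.2
  · rintro ⟨h0, hinv⟩
    exact isUnit_iff_exists_inv.mpr ⟨⟨_, hinv⟩, Subtype.ext (mul_inv_cancel₀ h0)⟩

theorem isLocalHom_evHom (x : M.Pt R) : IsLocalHom (M.evHom x).toRingHom := by
  constructor
  intro r hr
  have hr' : IsUnit (M.ev x r) := hr
  rw [isUnit_subalgebra_iff]
  refine ⟨?_, M.ev_isUnit x r r.2 hr'⟩
  intro h0
  rw [h0, M.ev_zero] at hr'
  exact not_isUnit_zero hr'

end local_

/-! ### generisations -/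

/-- a point of `A(F)` whose `ev` is the identity on some `O a ≤ O (ctr x)` is the generic one. -/
theorem O_ctr_eq_top_of_ev_eq (x : M.Pt F) (a : M.X) (h : M.O a ≤ M.O (M.ctr x))
    (hev : ∀ r ∈ M.O a, M.ev x r = r) : M.O (M.ctr x) = ⊤ ∧ ∀ r, M.ev x r = r := by
  have h1 : ∀ r : F, r ∈ M.O (M.ctr x) := by
    intro r
    obtain ⟨s, t, ht, hrt⟩ := M.exists_fraction a r
    have ht0 : (t : F) ≠ 0 := fun h0 => ht (Subtype.ext h0)
    have hinv : (t : F)⁻¹ ∈ M.O (M.ctr x) := by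
      apply M.ev_isUnit x t (h t.2)
      rw [hev t t.2]
      exact isUnit_iff_ne_zero.mpr ht0
    have : r = s * (t : F)⁻¹ := by
      rw [← hrt]; field_simp
    rw [this]
    exact mul_mem (h s.2) hinv
  refine ⟨eq_top_iff.mpr fun r _ => h1 r, fun r => ?_⟩
  obtain ⟨s, t, ht, hrt⟩ := M.exists_fraction a r
  have ht0 : (t : F) ≠ 0 := fun h0 => ht (Subtype.ext h0)
  have h2 := M.ev_mul x r t (h1 r) (h1 t)
  rw [hrt, hev s s.2, hev t t.2, ← hrt] at h2
  exact (mul_right_cancel₀ ht0 h2).symm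

/-- two points over a valuation ring of `F`, both inducing the inclusion, are equal -/
theorem eq_of_ev_eq_coe (V : ValuationSubring F) [Algebra K V] [IsScalarTower K V F]
    (x y : M.Pt V) (hx : ∀ r ∈ M.O (M.ctr x), ((M.ev x r : V) : F) = r)
    (hy : ∀ r ∈ M.O (M.ctr y), ((M.ev y r : V) : F) = r) : x = y := by
  apply (M.valuative V F).1
  set ι := IsScalarTower.toAlgHom K V F
  have hX := M.O_ctr_eq_top_of_ev_eq (M.map ι x) (M.ctr x) (M.ctr_map_le ι x) (fun r hr => by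
    rw [M.ev_map ι x r hr]; exact hx r hr)
  have hY := M.O_ctr_eq_top_of_ev_eq (M.map ι y) (M.ctr y) (M.ctr_map_le ι y) (fun r hr => by
    rw [M.ev_map ι y r hr]; exact hy r hr)
  apply M.pt_ext
  · apply M.O_injective
    rw [hX.1, hY.1]
  · intro r _
    rw [hX.2, hY.2]

/-- a point over a valuation ring of `F` dominating `O a` -/
theorem exists_pt_valuationSubring (V : ValuationSubring F) [Algebra K V] [IsScalarTower K V F]
    (a : M.X) (hle : ∀ r ∈ M.O a, r ∈ V) (hloc : ∀ r ∈ M.O a, r⁻¹ ∈ V → r⁻¹ ∈ M.O a) :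
    ∃ x : M.Pt V, M.ctr x = a ∧ ∀ r ∈ M.O a, ((M.ev x r : V) : F) = r := by
  let φ : M.O a →ₐ[K] V :=
    { toFun := fun r => ⟨r, hle r r.2⟩
      map_one' := rfl
      map_mul' := fun _ _ => rfl
      map_zero' := rfl
      map_add' := fun _ _ => rfl
      commutes' := fun c => Subtype.ext (by
        change algebraMap K F c = ((algebraMap K V c : V) : F)
        exact IsScalarTower.algebraMap_apply K V F c) }
  have hφ : IsLocalHom φ.toRingHom := by
    constructor
    intro r hr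
    obtain ⟨s, hs⟩ := isUnit_iff_exists_inv.mp hr
    have hs' : (r : F) * (s : F) = 1 := congrArg Subtype.val hs
    have hr0 : (r : F) ≠ 0 := left_ne_zero_of_mul_eq_one hs'
    rw [isUnit_subalgebra_iff]
    refine ⟨hr0, hloc r r.2 ?_⟩
    rw [← eq_inv_of_mul_eq_one_right hs']
    exact s.2
  obtain ⟨x, hx, hev⟩ := M.exists_pt a φ hφ
  exact ⟨x, hx, fun r hr => by rw [hev ⟨r, hr⟩]; rfl⟩

/-- domination implies equality -/
theorem eq_of_le_of_dominates {a b : M.X} (h : M.O a ≤ M.O b)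
    (hd : ∀ r ∈ M.O a, r⁻¹ ∈ M.O b → r⁻¹ ∈ M.O a) : a = b := by
  have : IsLocalRing (M.O b).toSubring := M.isLocalRing_O b
  obtain ⟨V, hV1, hV2⟩ := (LocalSubring.mk (M.O b).toSubring).exists_le_valuationSubring
  have hle : ∀ r ∈ M.O b, r ∈ V := fun r hr => hV1 hr
  have hloc : ∀ r ∈ M.O b, r⁻¹ ∈ V → r⁻¹ ∈ M.O b := by
    intro r hr hinv
    by_cases hr0 : r = 0
    · rw [hr0, inv_zero]; exact zero_mem _
    have hu : IsUnit (Subring.inclusion hV1 ⟨r, hr⟩) :=
      isUnit_iff_exists_inv.mpr ⟨⟨r⁻¹, hinv⟩, Subtype.ext (mul_inv_cancel₀ hr0)⟩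
    have hu' := hV2.map_nonunit _ hu
    exact ((isUnit_subalgebra_iff (A := M.O b) ⟨r, hr⟩).mp hu').2
  let _ : Algebra K V := ((algebraMap K F).codRestrict V.toSubring
    (fun c => hle _ ((M.O b).algebraMap_mem c))).toAlgebra
  have : IsScalarTower K V F := IsScalarTower.of_algebraMap_eq fun _ => rfl
  obtain ⟨x, hx, hxe⟩ := M.exists_pt_valuationSubring V a (fun r hr => hle r (h hr))
    (fun r hr hinv => hd r hr (hloc r (h hr) hinv))
  obtain ⟨y, hy, hye⟩ := M.exists_pt_valuationSubring V b hle hloc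
  have := M.eq_of_ev_eq_coe V x y (hx ▸ hxe) (hy ▸ hye)
  rw [← hx, ← hy, this]

/-- every prime of `O a` is the centre of a generisation -/
theorem exists_generisation (a : M.X) (p : Ideal (M.O a)) [p.IsPrime] :
    ∃ b : M.X, ∀ r : F, r ∈ M.O b ↔ ∃ s t : M.O a, t ∉ p ∧ r * t = s := by
  obtain ⟨R₀, -, hprime, q, hq, hqa⟩ := M.exists_chart a
  have hR₀ : R₀ ≤ M.O a := fun r hr =>
    (hqa r).mpr ⟨⟨r, hr⟩, 1, fun h1 => hq.ne_top ((Ideal.eq_top_iff_one q).mpr h1), by simp⟩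
  -- elements outside `q` are units of `O a`
  have hunit : ∀ t : R₀, t ∉ q → (t : F) ≠ 0 ∧ (t : F)⁻¹ ∈ M.O a := by
    intro t ht
    have ht0 : (t : F) ≠ 0 := by
      intro h0
      apply ht
      have : t = 0 := Subtype.ext h0
      rw [this]; exact zero_mem q
    exact ⟨ht0, (hqa _).mpr ⟨1, t, ht, by simp [ht0]⟩⟩
  let j : R₀ →ₐ[K] M.O a := Subalgebra.inclusion hR₀
  obtain ⟨b, hb⟩ := hprime (p.comap j) (Ideal.comap_isPrime j p)
  refine ⟨b, fun r => ?_⟩
  rw [hb r]
  constructor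
  · rintro ⟨s, t, ht, hrt⟩
    exact ⟨j s, j t, ht, hrt⟩
  · rintro ⟨s, t, ht, hrt⟩
    obtain ⟨s₁, t₁, ht₁, hs⟩ := (hqa s).mp s.2
    obtain ⟨s₂, t₂, ht₂, htt⟩ := (hqa t).mp t.2
    refine ⟨s₁ * t₂, s₂ * t₁, ?_, ?_⟩
    · intro hmem
      have hmem' : j s₂ * j t₁ ∈ p := by simpa using hmem
      have hs₂ : j s₂ = t * j t₂ := Subtype.ext htt.symm
      have hnot : ∀ t' : R₀, t' ∉ q → j t' ∉ p := by
        intro t' ht' hp
        apply (Ideal.IsPrime.ne_top (I := p) inferInstance)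
        apply Ideal.eq_top_of_isUnit_mem p hp
        exact (isUnit_subalgebra_iff (j t')).mpr (hunit t' ht')
      rcases (Ideal.IsPrime.mem_or_mem inferInstance hmem') with h1 | h1
      · rw [hs₂] at h1
        rcases (Ideal.IsPrime.mem_or_mem inferInstance h1) with h2 | h2
        · exact ht h2
        · exact hnot _ ht₂ h2
      · exact hnot _ ht₁ h1
    · push_cast
      rw [← htt, ← hs, ← hrt]; ring

/-- If `O a ⊆ O b` then `O b` is a localisation of `O a` (uses separatedness = `valuative` + `O_injective`). -/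
theorem exists_fraction_of_le {a b : M.X} (h : M.O a ≤ M.O b) (r : F) (hr : r ∈ M.O b) :
    ∃ s t : F, s ∈ M.O a ∧ t ∈ M.O a ∧ t ≠ 0 ∧ t⁻¹ ∈ M.O b ∧ r = s / t := by
  let j : M.O a →ₐ[K] M.O b := Subalgebra.inclusion h
  let p : Ideal (M.O a) := (maximalIdeal (M.O b)).comap j
  have hp : ∀ t : M.O a, t ∉ p ↔ (t : F) ≠ 0 ∧ (t : F)⁻¹ ∈ M.O b := by
    intro t
    have h1 := isUnit_subalgebra_iff (j t)
    have h2 : ((j t : M.O b) : F) = t := rfl
    rw [h2] at h1
    rw [← h1]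
    simp [p]
  obtain ⟨c, hc⟩ := M.exists_generisation a p
  have hcb : M.O c ≤ M.O b := by
    intro x hx
    obtain ⟨s, t, ht, hxt⟩ := (hc x).mp hx
    obtain ⟨ht0, htinv⟩ := (hp t).mp ht
    have : x = s * (t : F)⁻¹ := by rw [← hxt]; field_simp
    rw [this]
    exact mul_mem (h s.2) htinv
  have hcb' : c = b := by
    apply M.eq_of_le_of_dominates hcb
    intro x hx hxinv
    by_cases hx0 : x = 0
    · rw [hx0, inv_zero]; exact zero_mem _
    obtain ⟨s, t, ht, hxt⟩ := (hc x).mp hx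
    obtain ⟨ht0, htinv⟩ := (hp t).mp ht
    have hs0 : (s : F) ≠ 0 := by rw [← hxt]; exact mul_ne_zero hx0 ht0
    refine (hc _).mpr ⟨t, s, (hp s).mpr ⟨hs0, ?_⟩, ?_⟩
    · have : (s : F)⁻¹ = x⁻¹ * (t : F)⁻¹ := by rw [← hxt, mul_inv]
      rw [this]
      exact mul_mem hxinv htinv
    · rw [← hxt]; field_simp
  subst hcb'
  obtain ⟨s, t, ht, hrt⟩ := (hc r).mp hr
  obtain ⟨ht0, htinv⟩ := (hp t).mp ht
  exact ⟨s, t, s.2, t.2, ht0, htinv, by rw [← hrt]; field_simp⟩

instance isNoetherianRing_O (a : M.X) : IsNoetherianRing (M.O a) := by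
  obtain ⟨R₀, hfg, -, q, hq, hqa⟩ := M.exists_chart a
  have hR₀ : R₀ ≤ M.O a := fun r hr =>
    (hqa r).mpr ⟨⟨r, hr⟩, 1, fun h1 => hq.ne_top ((Ideal.eq_top_iff_one q).mpr h1), by simp⟩
  have hunit : ∀ t : R₀, t ∉ q → (t : F) ≠ 0 ∧ (t : F)⁻¹ ∈ M.O a := by
    intro t ht
    have ht0 : (t : F) ≠ 0 := by
      intro h0
      apply ht
      have : t = 0 := Subtype.ext h0
      rw [this]; exact zero_mem q
    exact ⟨ht0, (hqa _).mpr ⟨1, t, ht, by simp [ht0]⟩⟩
  let j : R₀ →ₐ[K] M.O a := Subalgebra.inclusion hR₀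
  have : Algebra.FiniteType K R₀ := (Subalgebra.fg_iff_finiteType R₀).mp hfg
  have : IsNoetherianRing R₀ := Algebra.FiniteType.isNoetherianRing K R₀
  let _ : Algebra R₀ (M.O a) := j.toRingHom.toAlgebra
  have hloc : IsLocalization q.primeCompl (M.O a) :=
    { map_units := fun t => (isUnit_subalgebra_iff (j t)).mpr (hunit t t.2)
      surj := fun r => by
        obtain ⟨s, t, ht, hrt⟩ := (hqa r).mp r.2
        exact ⟨(s, ⟨t, ht⟩), Subtype.ext hrt⟩
      exists_of_eq := fun {x y} hxy => by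
        have : x = y := Subtype.ext (congrArg (fun z : M.O a => (z : F)) hxy)
        exact ⟨1, by rw [this]⟩ }
  exact IsLocalization.isNoetherianRing q.primeCompl (M.O a) inferInstance

theorem exists_genPt : ∃ a : M.X, M.O a = ⊤ := by
  let a : M.X := M.ctr (0 : M.Pt K)
  obtain ⟨b, hb⟩ := M.exists_generisation a ⊥
  refine ⟨b, eq_top_iff.mpr fun r _ => ?_⟩
  obtain ⟨s, t, ht, hrt⟩ := M.exists_fraction a r
  exact (hb r).mpr ⟨s, t, by simpa using ht, hrt⟩

/-- the generic point of `A` -/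
noncomputable def genPt : M.X := M.exists_genPt.choose

theorem O_genPt : M.O M.genPt = ⊤ := M.exists_genPt.choose_spec

theorem exists_eta : ∃ x : M.Pt F, M.ctr x = M.genPt ∧ ∀ r : F, M.ev x r = r := by
  have hmem : ∀ r : F, r ∈ M.O M.genPt := fun r => by rw [M.O_genPt]; trivial
  obtain ⟨x, hx, hev⟩ := M.exists_pt M.genPt (M.O M.genPt).val (by
    constructor
    intro r hr
    rw [isUnit_subalgebra_iff]
    exact ⟨hr.ne_zero, hmem _⟩)
  exact ⟨x, hx, fun r => hev ⟨r, hmem r⟩⟩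

/-- the generic point `η ∈ A(F)` -/
noncomputable def eta : M.Pt F := M.exists_eta.choose

theorem ctr_eta : M.ctr M.eta = M.genPt := M.exists_eta.choose_spec.1
theorem ev_eta (r : F) : M.ev M.eta r = r := M.exists_eta.choose_spec.2 r

/-! ### dimension -/

/-- `dim a = trdeg_K κ(a)` -/
noncomputable def dim (a : M.X) : ℕ := (Algebra.trdeg K (ResidueField (M.O a))).toNat

/-- the residue map as a `K`-algebra homomorphism -/
noncomputable def resHom (a : M.X) : M.O a →ₐ[K] ResidueField (M.O a) :=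
  IsScalarTower.toAlgHom K (M.O a) (ResidueField (M.O a))

theorem resHom_surjective (a : M.X) : Function.Surjective (M.resHom a) :=
  IsLocalRing.residue_surjective

theorem resHom_eq_zero_iff (a : M.X) (r : M.O a) : M.resHom a r = 0 ↔ ¬ IsUnit r := by
  change IsLocalRing.residue (M.O a) r = 0 ↔ _
  rw [IsLocalRing.residue_eq_zero_iff, IsLocalRing.mem_maximalIdeal, mem_nonunits_iff]

theorem trdeg_O_le (a : M.X) : Algebra.trdeg K (M.O a) ≤ M.g := by
  rw [← M.trdeg_eq]
  exact trdeg_le_of_injective (M.O a).val Subtype.val_injective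

theorem trdeg_residueField_le (a : M.X) : Algebra.trdeg K (ResidueField (M.O a)) ≤ M.g :=
  (trdeg_le_of_surjective (M.resHom a) (M.resHom_surjective a)).trans (M.trdeg_O_le a)

theorem trdeg_residueField (a : M.X) : Algebra.trdeg K (ResidueField (M.O a)) = M.dim a := by
  rw [dim, Cardinal.cast_toNat_of_lt_aleph0]
  exact (M.trdeg_residueField_le a).trans_lt (Cardinal.natCast_lt_aleph0)

theorem dim_le (a : M.X) : M.dim a ≤ M.g := by
  have := M.trdeg_residueField_le a
  rw [M.trdeg_residueField] at this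
  exact_mod_cast this

theorem dim_genPt : M.dim M.genPt = M.g := by
  apply le_antisymm (M.dim_le _)
  have hmem : ∀ r : F, r ∈ M.O M.genPt := fun r => by rw [M.O_genPt]; trivial
  let e : F →ₐ[K] M.O M.genPt :=
    { toFun := fun r => ⟨r, hmem r⟩
      map_one' := rfl
      map_mul' := fun _ _ => rfl
      map_zero' := rfl
      map_add' := fun _ _ => rfl
      commutes' := fun _ => rfl }
  have h1 : Algebra.trdeg K F ≤ Algebra.trdeg K (ResidueField (M.O M.genPt)) :=
    trdeg_le_of_injective ((M.resHom M.genPt).comp e) (RingHom.injective _)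
  rw [M.trdeg_eq, M.trdeg_residueField] at h1
  exact_mod_cast h1

theorem dim_lt_of_le_of_ne {a b : M.X} (h : M.O a ≤ M.O b) (hab : a ≠ b) : M.dim a < M.dim b := by
  -- a non-unit of `O a` which is a unit of `O b`
  obtain ⟨r, hr, hrb, hra⟩ : ∃ r ∈ M.O a, r⁻¹ ∈ M.O b ∧ r⁻¹ ∉ M.O a := by
    by_contra hcon
    push Not at hcon
    exact hab (M.eq_of_le_of_dominates h hcon)
  have hr0 : r ≠ 0 := by
    rintro rfl
    apply hra; rw [inv_zero]; exact zero_mem _
  let j : M.O a →ₐ[K] M.O b := Subalgebra.inclusion h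
  let f : M.O a →ₐ[K] ResidueField (M.O b) := (M.resHom b).comp j
  let p : Ideal (M.O a) := RingHom.ker f
  have hpmem : ∀ t : M.O a, t ∈ p ↔ ¬ IsUnit (j t) := fun t => by
    rw [← M.resHom_eq_zero_iff]; rfl
  have hpm : p ≤ maximalIdeal (M.O a) := by
    intro t ht
    rw [IsLocalRing.mem_maximalIdeal, mem_nonunits_iff]
    intro hu
    exact (hpmem t).mp ht (hu.map j)
  have : p.IsPrime := RingHom.ker_isPrime f
  let q : Ideal (M.O a ⧸ p) := (maximalIdeal (M.O a)).map (Ideal.Quotient.mkₐ K p)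
  have hqprime : q.IsPrime := by
    apply Ideal.map_isPrime_of_surjective (Ideal.Quotient.mkₐ_surjective K p)
    have : RingHom.ker (Ideal.Quotient.mkₐ K p) = p := Ideal.Quotient.mkₐ_ker K p
    rw [this]
    exact hpm
  have hq : q ≠ ⊥ := by
    intro hbot
    have h1 : Ideal.Quotient.mkₐ K p ⟨r, hr⟩ ∈ q := by
      apply Ideal.mem_map_of_mem
      rw [IsLocalRing.mem_maximalIdeal, mem_nonunits_iff, isUnit_subalgebra_iff]
      exact fun h => hra h.2
    rw [hbot, Ideal.mem_bot] at h1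
    have h2 : (⟨r, hr⟩ : M.O a) ∈ p := Ideal.Quotient.eq_zero_iff_mem.mp h1
    exact (hpmem _).mp h2 ((isUnit_subalgebra_iff _).mpr ⟨hr0, hrb⟩)
  have hfin : Algebra.trdeg K (M.O a ⧸ p) < Cardinal.aleph0 :=
    ((trdeg_le_of_surjective (Ideal.Quotient.mkₐ K p)
      (Ideal.Quotient.mkₐ_surjective K p)).trans (M.trdeg_O_le a)).trans_lt
        Cardinal.natCast_lt_aleph0
  have h1 := trdeg_quotient_lt hfin q hq
  have h2 : Algebra.trdeg K (M.O a ⧸ p) ≤ Algebra.trdeg K (ResidueField (M.O b)) :=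
    trdeg_le_of_injective (Ideal.kerLiftAlg f) (Ideal.kerLiftAlg_injective f)
  have h3 : Algebra.trdeg K ((M.O a ⧸ p) ⧸ q) = Algebra.trdeg K (ResidueField (M.O a)) :=
    (DoubleQuot.quotQuotEquivQuotOfLEₐ K hpm).trdeg_eq
  rw [h3] at h1
  have h4 := h1.trans_le h2
  rw [M.trdeg_residueField, M.trdeg_residueField] at h4
  exact_mod_cast h4

theorem le_O_genPt (a : M.X) : M.O a ≤ M.O M.genPt := by rw [M.O_genPt]; exact le_top

theorem eq_genPt_of_dim_eq {a : M.X} (h : M.dim a = M.g) : a = M.genPt := by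
  by_contra hne
  have := M.dim_lt_of_le_of_ne (M.le_O_genPt a) hne
  rw [M.dim_genPt, h] at this
  exact lt_irrefl _ this

/-! ### functoriality of the centre -/

section local_map

variable {R S : Type u} [CommRing R] [Algebra K R] [IsLocalRing R] [CommRing S] [Algebra K S]
  [IsLocalRing S]

/-- a local homomorphism does not change the centre -/
theorem ctr_map_of_isLocalHom (φ : R →ₐ[K] S) (hφ : ∀ r, IsUnit (φ r) → IsUnit r) (x : M.Pt R) :
    M.ctr (M.map φ x) = M.ctr x := by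
  symm
  apply M.eq_of_le_of_dominates (M.ctr_map_le φ x)
  intro r hr hinv
  by_cases hr0 : r = 0
  · rw [hr0, inv_zero]; exact zero_mem _
  apply M.ev_isUnit x r hr
  apply hφ
  have h2 := M.ev_mul (M.map φ x) r r⁻¹ (M.ctr_map_le φ x hr) hinv
  rw [mul_inv_cancel₀ hr0, M.ev_one, M.ev_map φ x r hr] at h2
  exact IsUnit.of_mul_eq_one _ h2.symm

end local_map

/-! ### points with values in fields -/

section field

variable {Ω Ω' : Type u} [Field Ω] [Algebra K Ω] [Field Ω'] [Algebra K Ω']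

theorem ev_inv (x : M.Pt Ω) (r : F) (hr : r ∈ M.O (M.ctr x)) (h0 : M.ev x r ≠ 0) :
    r⁻¹ ∈ M.O (M.ctr x) ∧ M.ev x r⁻¹ = (M.ev x r)⁻¹ := by
  have hinv := M.ev_isUnit x r hr (isUnit_iff_ne_zero.mpr h0)
  refine ⟨hinv, ?_⟩
  have hr0 : r ≠ 0 := by
    rintro rfl
    exact h0 (M.ev_zero x)
  have h2 := M.ev_mul x r r⁻¹ hr hinv
  rw [mul_inv_cancel₀ hr0, M.ev_one] at h2
  exact eq_inv_of_mul_eq_one_right h2.symm

/-- the field of definition `K(x) ⊆ Ω` of `x ∈ A(Ω)` -/
def fd (x : M.Pt Ω) : IntermediateField K Ω where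
  toSubalgebra := (M.evHom x).range
  inv_mem' := by
    rintro _ ⟨r, rfl⟩
    by_cases h0 : M.ev x r = 0
    · have : (M.evHom x).toRingHom r = 0 := h0
      rw [this, inv_zero]; exact (M.evHom x).range.zero_mem
    · obtain ⟨hinv, he⟩ := M.ev_inv x r r.2 h0
      exact ⟨⟨_, hinv⟩, he⟩

theorem mem_fd {x : M.Pt Ω} {w : Ω} : w ∈ M.fd x ↔ ∃ r ∈ M.O (M.ctr x), M.ev x r = w := by
  constructor
  · rintro ⟨r, rfl⟩
    exact ⟨r, r.2, rfl⟩
  · rintro ⟨r, hr, rfl⟩
    exact ⟨⟨r, hr⟩, rfl⟩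

theorem ctr_map_field (j : Ω →ₐ[K] Ω') (x : M.Pt Ω) : M.ctr (M.map j x) = M.ctr x := by
  apply M.ctr_map_of_isLocalHom
  intro r hr
  rw [isUnit_iff_ne_zero] at hr ⊢
  rintro rfl
  exact hr (_root_.map_zero j)

/-- the corestriction of `ev x` to the field of definition -/
def evFd (x : M.Pt Ω) : M.O (M.ctr x) →ₐ[K] M.fd x where
  toFun r := ⟨M.ev x r, M.mem_fd.mpr ⟨r, r.2, rfl⟩⟩
  map_one' := Subtype.ext (M.ev_one x)
  map_mul' r s := Subtype.ext (M.ev_mul x r s r.2 s.2)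
  map_zero' := Subtype.ext (M.ev_zero x)
  map_add' r s := Subtype.ext (M.ev_add x r s r.2 s.2)
  commutes' c := Subtype.ext (M.ev_algebraMap x c)

theorem evFd_surjective (x : M.Pt Ω) : Function.Surjective (M.evFd x) := by
  rintro ⟨w, hw⟩
  obtain ⟨r, hr, rfl⟩ := M.mem_fd.mp hw
  exact ⟨⟨r, hr⟩, rfl⟩

theorem isUnit_of_evFd (x : M.Pt Ω) (r : M.O (M.ctr x)) (h : M.evFd x r ≠ 0) : IsUnit r := by
  have h0 : M.ev x r ≠ 0 := fun h0 => h (Subtype.ext h0)
  rw [isUnit_subalgebra_iff]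
  refine ⟨?_, (M.ev_inv x r r.2 h0).1⟩
  intro hr0
  rw [hr0] at h0
  exact h0 (M.ev_zero x)

/-- `x` is defined over `K(x)` -/
theorem exists_descend (x : M.Pt Ω) : ∃ x₀ : M.Pt (M.fd x), M.map (M.fd x).val x₀ = x := by
  obtain ⟨x₀, hx₀, hev⟩ := M.exists_pt (M.ctr x) (M.evFd x) (by
    constructor
    intro r hr
    exact M.isUnit_of_evFd x r hr.ne_zero)
  refine ⟨x₀, ?_⟩
  have hc : M.ctr (M.map (M.fd x).val x₀) = M.ctr x := by rw [M.ctr_map_field, hx₀]
  apply M.pt_ext _ _ hc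
  intro r hr
  rw [hc] at hr
  rw [M.ev_map _ x₀ r (by rw [hx₀]; exact hr), hev ⟨r, hr⟩]
  rfl

theorem fd_map (j : Ω →ₐ[K] Ω') (x : M.Pt Ω) : M.fd (M.map j x) = (M.fd x).map j := by
  ext w
  rw [M.mem_fd, IntermediateField.mem_map]
  constructor
  · rintro ⟨r, hr, rfl⟩
    rw [M.ctr_map_field] at hr
    exact ⟨M.ev x r, M.mem_fd.mpr ⟨r, hr, rfl⟩, (M.ev_map j x r hr).symm⟩
  · rintro ⟨w', hw', rfl⟩
    obtain ⟨r, hr, rfl⟩ := M.mem_fd.mp hw'
    exact ⟨r, by rw [M.ctr_map_field]; exact hr, M.ev_map j x r hr⟩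

/-- `K(x)` is the smallest field of definition -/
theorem fd_map_le (j : Ω →ₐ[K] Ω') (x : M.Pt Ω) : M.fd (M.map j x) ≤ j.fieldRange := by
  rw [M.fd_map]
  intro w hw
  obtain ⟨w', -, rfl⟩ := (IntermediateField.mem_map _).mp hw
  exact ⟨w', rfl⟩

theorem map_injective_field (j : Ω →ₐ[K] Ω') : Function.Injective (M.map j : M.Pt Ω → M.Pt Ω') := by
  intro x y hxy
  have hc : M.ctr x = M.ctr y := by
    rw [← M.ctr_map_field j x, ← M.ctr_map_field j y, hxy]
  apply M.pt_ext _ _ hc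
  intro r hr
  apply j.toRingHom.injective
  change j (M.ev x r) = j (M.ev y r)
  rw [← M.ev_map j x r hr, ← M.ev_map j y r (hc ▸ hr), hxy]

/-- a point whose field of definition is contained in `k` comes from `A(k)` -/
theorem exists_descend_of_le (x : M.Pt Ω) (k : IntermediateField K Ω) (h : M.fd x ≤ k) :
    ∃ x₀ : M.Pt k, M.map k.val x₀ = x := by
  obtain ⟨x₀, hx₀⟩ := M.exists_descend x
  refine ⟨M.map (IntermediateField.inclusion h) x₀, ?_⟩
  rw [← M.map_comp]
  exact hx₀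

theorem fd_map_val_le (k : IntermediateField K Ω) (x₀ : M.Pt k) : M.fd (M.map k.val x₀) ≤ k := by
  have := M.fd_map_le k.val x₀
  rwa [IntermediateField.fieldRange_val] at this

theorem fd_add_le (x y : M.Pt Ω) : M.fd (x + y) ≤ M.fd x ⊔ M.fd y := by
  obtain ⟨x₀, hx₀⟩ := M.exists_descend_of_le x (M.fd x ⊔ M.fd y) le_sup_left
  obtain ⟨y₀, hy₀⟩ := M.exists_descend_of_le y (M.fd x ⊔ M.fd y) le_sup_right
  have h : x + y = M.map (M.fd x ⊔ M.fd y).val (x₀ + y₀) := by rw [M.map_add, hx₀, hy₀]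
  generalize M.fd x ⊔ M.fd y = k at *
  rw [h]
  exact M.fd_map_val_le _ _

theorem fd_neg_le (x : M.Pt Ω) : M.fd (-x) ≤ M.fd x := by
  obtain ⟨x₀, hx₀⟩ := M.exists_descend x
  conv_lhs => rw [← hx₀, ← M.map_neg]
  exact M.fd_map_val_le _ _

theorem fd_neg (x : M.Pt Ω) : M.fd (-x) = M.fd x := by
  apply le_antisymm (M.fd_neg_le x)
  have := M.fd_neg_le (-x)
  rwa [neg_neg] at this

theorem fd_sub_le (x y : M.Pt Ω) : M.fd (x - y) ≤ M.fd x ⊔ M.fd y := by
  rw [sub_eq_add_neg, ← M.fd_neg y]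
  exact M.fd_add_le x (-y)

theorem fd_nsmul_le (n : ℕ) (x : M.Pt Ω) : M.fd (n • x) ≤ M.fd x := by
  obtain ⟨x₀, hx₀⟩ := M.exists_descend x
  conv_lhs => rw [← hx₀, ← M.map_nsmul]
  exact M.fd_map_val_le _ _

theorem fd_zero : M.fd (0 : M.Pt Ω) = ⊥ := by
  rw [eq_bot_iff]
  have := M.fd_map_val_le (⊥ : IntermediateField K Ω) 0
  rwa [M.map_zero] at this

theorem trdeg_fd (x : M.Pt Ω) : Algebra.trdeg K (M.fd x) = M.dim (M.ctr x) := by
  rw [← M.trdeg_residueField]
  have hker : ∀ r ∈ maximalIdeal (M.O (M.ctr x)), M.evFd x r = 0 := by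
    intro r hr
    by_contra h0
    exact hr (M.isUnit_of_evFd x r h0)
  let f : ResidueField (M.O (M.ctr x)) →ₐ[K] M.fd x :=
    Ideal.Quotient.liftₐ (maximalIdeal (M.O (M.ctr x))) (M.evFd x) hker
  have hf : Function.Surjective f := by
    intro w
    obtain ⟨r, rfl⟩ := M.evFd_surjective x w
    exact ⟨IsLocalRing.residue _ r, rfl⟩
  exact (AlgEquiv.ofBijective f ⟨f.toRingHom.injective, hf⟩).trdeg_eq.symm

/-- `x ∈ A(Ω)` is a generic point of `A` -/
def IsGeneric (x : M.Pt Ω) : Prop := M.ctr x = M.genPt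

theorem isGeneric_iff_dim {x : M.Pt Ω} : M.IsGeneric x ↔ M.dim (M.ctr x) = M.g := by
  constructor
  · intro h
    rw [h, M.dim_genPt]
  · exact M.eq_genPt_of_dim_eq

theorem isGeneric_eta : M.IsGeneric M.eta := M.ctr_eta

/-- the embedding `x^# : F → Ω` of a generic point (junk `ev` is a ring hom because `O = ⊤`) -/
def emb (x : M.Pt Ω) (hx : M.IsGeneric x) : F →ₐ[K] Ω where
  toFun r := M.ev x r
  map_one' := by simpa using M.ev_algebraMap x 1
  map_mul' r s := M.ev_mul x r s (by rw [hx, M.O_genPt]; trivial) (by rw [hx, M.O_genPt]; trivial)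
  map_zero' := by simpa using M.ev_algebraMap x 0
  map_add' r s := M.ev_add x r s (by rw [hx, M.O_genPt]; trivial) (by rw [hx, M.O_genPt]; trivial)
  commutes' c := M.ev_algebraMap x c

@[simp] theorem emb_apply (x : M.Pt Ω) (hx : M.IsGeneric x) (r : F) : M.emb x hx r = M.ev x r := rfl

theorem mem_O_ctr_eta (r : F) : r ∈ M.O (M.ctr M.eta) := by
  rw [M.ctr_eta, M.O_genPt]; trivial

theorem isGeneric_map_eta (j : F →ₐ[K] Ω) : M.IsGeneric (M.map j M.eta) := by
  rw [IsGeneric, M.ctr_map_field, M.ctr_eta]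

theorem map_emb_eta (x : M.Pt Ω) (hx : M.IsGeneric x) : M.map (M.emb x hx) M.eta = x := by
  apply M.pt_ext _ _ ((M.isGeneric_map_eta _).trans hx.symm)
  intro r _
  rw [M.ev_map _ _ r (M.mem_O_ctr_eta r), M.ev_eta, emb_apply]

theorem emb_map_eta (j : F →ₐ[K] Ω) : M.emb (M.map j M.eta) (M.isGeneric_map_eta j) = j := by
  ext r
  rw [emb_apply, M.ev_map _ _ r (M.mem_O_ctr_eta r), M.ev_eta]

theorem fd_eq_fieldRange (x : M.Pt Ω) (hx : M.IsGeneric x) : M.fd x = (M.emb x hx).fieldRange := by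
  ext w
  rw [M.mem_fd]
  constructor
  · rintro ⟨r, -, rfl⟩
    exact ⟨r, rfl⟩
  · rintro ⟨r, rfl⟩
    exact ⟨r, by rw [hx, M.O_genPt]; trivial, rfl⟩

/-- points of dimension `0` are `K`-rational (`K` algebraically closed) -/
theorem exists_of_dim_eq_zero [IsAlgClosed K] (x : M.Pt Ω) (h : M.dim (M.ctr x) = 0) :
    ∃ x₀ : M.Pt K, M.map (Algebra.ofId K Ω) x₀ = x := by
  have h1 : Algebra.trdeg K (M.fd x) = 0 := by rw [M.trdeg_fd, h]; simp
  have h2 : Algebra.IsAlgebraic K (M.fd x) := trdeg_eq_zero_iff.mp h1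
  have h3 : M.fd x = ⊥ := IntermediateField.eq_bot_of_isAlgClosed_of_isAlgebraic _
  obtain ⟨x₁, hx₁⟩ := M.exists_descend_of_le x ⊥ h3.le
  refine ⟨M.map (IntermediateField.botEquiv K Ω).toAlgHom x₁, ?_⟩
  rw [← M.map_comp, ← hx₁]
  congr 1
  ext z
  obtain ⟨c, hc⟩ := IntermediateField.mem_bot.mp z.2
  have hz : z = algebraMap K (⊥ : IntermediateField K Ω) c := Subtype.ext hc.symm
  rw [hz, AlgHom.commutes, AlgHom.commutes]

end field

/-! ### reduction at a discrete valuation ring `v : Place K Φ` -/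

section place

variable {Φ : Type u} [Field Φ] [Algebra K Φ] (v : Place K Φ)

/-- the unique extension of `x ∈ A(Φ)` to `A(O_v)` -/
noncomputable def lift (x : M.Pt Φ) : M.Pt v.toValuationSubring :=
  (Equiv.ofBijective _ (M.valuative v.toValuationSubring Φ)).symm x

theorem bc_lift (x : M.Pt Φ) : M.bc v.toValuationSubring Φ (M.lift v x) = x :=
  (Equiv.ofBijective _ (M.valuative v.toValuationSubring Φ)).apply_symm_apply x

theorem lift_bc (x : M.Pt v.toValuationSubring) : M.lift v (M.bc v.toValuationSubring Φ x) = x :=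
  (Equiv.ofBijective _ (M.valuative v.toValuationSubring Φ)).symm_apply_apply x

theorem map_lift (x : M.Pt Φ) :
    M.map (IsScalarTower.toAlgHom K v.toValuationSubring Φ) (M.lift v x) = x := M.bc_lift v x

theorem lift_add (x y : M.Pt Φ) : M.lift v (x + y) = M.lift v x + M.lift v y := by
  apply (M.valuative v.toValuationSubring Φ).1
  rw [M.map_add, M.map_lift, M.map_lift, M.map_lift]

/-- the reduction `A(Φ) → A(κ(v))` -/
noncomputable def red (x : M.Pt Φ) : M.Pt v.ResidueField :=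
  M.bc v.toValuationSubring v.ResidueField (M.lift v x)

theorem red_add (x y : M.Pt Φ) : M.red v (x + y) = M.red v x + M.red v y := by
  rw [red, M.lift_add]
  exact M.map_add _ _ _

/-- the reduction as a group homomorphism -/
noncomputable def redHom : M.Pt Φ →+ M.Pt v.ResidueField :=
  AddMonoidHom.mk' (M.red v) (M.red_add v)

theorem red_zero : M.red v 0 = 0 := (M.redHom v).map_zero
theorem red_neg (x : M.Pt Φ) : M.red v (-x) = -M.red v x := (M.redHom v).map_neg x
theorem red_sub (x y : M.Pt Φ) : M.red v (x - y) = M.red v x - M.red v y :=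
  (M.redHom v).map_sub x y

/-- the centre of `x` at `v` -/
noncomputable def cen (x : M.Pt Φ) : M.X := M.ctr (M.lift v x)

theorem ctr_red (x : M.Pt Φ) : M.ctr (M.red v x) = M.cen v x := by
  apply M.ctr_map_of_isLocalHom
  intro r hr
  by_contra hu
  have : IsLocalRing.residue v.toValuationSubring r = 0 := by
    rw [IsLocalRing.residue_eq_zero_iff]; exact hu
  exact hr.ne_zero this

theorem O_cen_le (x : M.Pt Φ) : M.O (M.cen v x) ≤ M.O (M.ctr x) := by
  have := M.ctr_map_le (IsScalarTower.toAlgHom K v.toValuationSubring Φ) (M.lift v x)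
  rwa [M.map_lift v x] at this

theorem ev_lift (x : M.Pt Φ) (r : F) (hr : r ∈ M.O (M.cen v x)) :
    ((M.ev (M.lift v x) r : v.toValuationSubring) : Φ) = M.ev x r := by
  have := M.ev_map (IsScalarTower.toAlgHom K v.toValuationSubring Φ) (M.lift v x) r hr
  rw [M.map_lift v x] at this
  exact this.symm

/-- If `x` comes from a point over a local ring `B` mapping to `O_v`, then `lift v x` is its image. -/
theorem lift_eq_map {B : Type u} [CommRing B] [Algebra K B] (j : B →ₐ[K] v.toValuationSubring)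
    (z : M.Pt B) (x : M.Pt Φ)
    (h : M.map ((IsScalarTower.toAlgHom K v.toValuationSubring Φ).comp j) z = x) :
    M.lift v x = M.map j z := by
  apply (M.valuative v.toValuationSubring Φ).1
  rw [← M.map_comp, h]
  exact M.bc_lift v x

end place

end AVModel

end Fermat.Agent.S26
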