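import Mathlib

/-! # S26 : the abstract model of an abelian variety (Chevalley style)

`AVModel K F` packages exactly what the algebraic part of the proof of S26 uses about the abelian variety
`A/K` with function field `F`:
* the functor of points `Pt R = A(R)` on `K`-algebras (abelian groups, functorial);
* the underlying set `X` of `A` and the local rings `O a ⊆ F`;
* for a LOCAL `K`-algebra `R`: `A(R) = {(a, φ) | a ∈ X, φ : O a → R local K-hom}`; this is encoded by
  `ctr x : X` and a TOTAL function `ev x : F → R` (junk outside `O (ctr x)`), to avoid dependent types;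
* the valuative criterion, finite type charts, factoriality of the `O a`, `trdeg F = g`. -/

set_option autoImplicit false

universe u

namespace Fermat.Agent.S26

structure AVModel (K : Type u) [Field K] (F : Type u) [Field F] [Algebra K F] : Type (u + 1) where
  /-- the dimension -/
  g : ℕ
  /-- `A(R)` -/
  Pt : (R : Type u) → [CommRing R] → [Algebra K R] → Type u
  grp : ∀ (R : Type u) [CommRing R] [Algebra K R], AddCommGroup (Pt R)
  map : ∀ {R S : Type u} [CommRing R] [Algebra K R] [CommRing S] [Algebra K S],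
    (R →ₐ[K] S) → Pt R → Pt S
  map_id : ∀ {R : Type u} [CommRing R] [Algebra K R] (x : Pt R), map (AlgHom.id K R) x = x
  map_comp : ∀ {R S T : Type u} [CommRing R] [Algebra K R] [CommRing S] [Algebra K S]
    [CommRing T] [Algebra K T] (φ : R →ₐ[K] S) (ψ : S →ₐ[K] T) (x : Pt R),
    map (ψ.comp φ) x = map ψ (map φ x)
  map_add : ∀ {R S : Type u} [CommRing R] [Algebra K R] [CommRing S] [Algebra K S]
    (φ : R →ₐ[K] S) (x y : Pt R),
    letI := grp R; letI := grp S; map φ (x + y) = map φ x + map φ y
  /-- the underlying set of the scheme -/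
  X : Type u
  /-- the local rings, as subalgebras of the function field -/
  O : X → Subalgebra K F
  isLocalRing_O : ∀ a, IsLocalRing (O a)
  /-- `F = Frac (O a)` -/
  exists_fraction : ∀ (a : X) (r : F), ∃ s t : O a, t ≠ 0 ∧ r * t = s
  O_injective : Function.Injective O
  /-- factoriality (from smoothness) -/
  ufd_O : ∀ a, UniqueFactorizationMonoid (O a)
  /-- affine charts of finite type -/
  exists_chart : ∀ a : X, ∃ R₀ : Subalgebra K F, R₀.FG ∧
    (∀ q : Ideal R₀, q.IsPrime → ∃ b : X, ∀ r : F, r ∈ O b ↔ ∃ s t : R₀, t ∉ q ∧ r * t = s) ∧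
    (∃ q : Ideal R₀, q.IsPrime ∧ ∀ r : F, r ∈ O a ↔ ∃ s t : R₀, t ∉ q ∧ r * t = s)
  trdeg_eq : Algebra.trdeg K F = g
  /-- the image of the closed point -/
  ctr : ∀ {R : Type u} [CommRing R] [Algebra K R] [IsLocalRing R], Pt R → X
  /-- the local homomorphism `O (ctr x) → R`, extended by junk to `F` -/
  ev : ∀ {R : Type u} [CommRing R] [Algebra K R] [IsLocalRing R], Pt R → F → R
  ev_add : ∀ {R : Type u} [CommRing R] [Algebra K R] [IsLocalRing R] (x : Pt R) (r s : F),
    r ∈ O (ctr x) → s ∈ O (ctr x) → ev x (r + s) = ev x r + ev x s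
  ev_mul : ∀ {R : Type u} [CommRing R] [Algebra K R] [IsLocalRing R] (x : Pt R) (r s : F),
    r ∈ O (ctr x) → s ∈ O (ctr x) → ev x (r * s) = ev x r * ev x s
  ev_algebraMap : ∀ {R : Type u} [CommRing R] [Algebra K R] [IsLocalRing R] (x : Pt R) (c : K),
    ev x (algebraMap K F c) = algebraMap K R c
  /-- `ev x` is a local homomorphism -/
  ev_isUnit : ∀ {R : Type u} [CommRing R] [Algebra K R] [IsLocalRing R] (x : Pt R) (r : F),
    r ∈ O (ctr x) → IsUnit (ev x r) → r⁻¹ ∈ O (ctr x)
  pt_ext : ∀ {R : Type u} [CommRing R] [Algebra K R] [IsLocalRing R] (x y : Pt R),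
    ctr x = ctr y → (∀ r ∈ O (ctr x), ev x r = ev y r) → x = y
  exists_pt : ∀ {R : Type u} [CommRing R] [Algebra K R] [IsLocalRing R] (a : X)
    (φ : O a →ₐ[K] R), IsLocalHom φ.toRingHom → ∃ x : Pt R, ctr x = a ∧ ∀ r : O a, ev x r = φ r
  /-- naturality (for arbitrary, not necessarily local, homomorphisms of local rings) -/
  ctr_map_le : ∀ {R S : Type u} [CommRing R] [Algebra K R] [IsLocalRing R] [CommRing S] [Algebra K S]
    [IsLocalRing S] (φ : R →ₐ[K] S) (x : Pt R), O (ctr x) ≤ O (ctr (map φ x))
  ev_map : ∀ {R S : Type u} [CommRing R] [Algebra K R] [IsLocalRing R] [CommRing S] [Algebra K S]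
    [IsLocalRing S] (φ : R →ₐ[K] S) (x : Pt R) (r : F), r ∈ O (ctr x) → ev (map φ x) r = φ (ev x r)
  /-- the valuative criterion of properness -/
  valuative : ∀ (V Φ : Type u) [CommRing V] [IsDomain V] [ValuationRing V] [Field Φ] [Algebra V Φ]
    [IsFractionRing V Φ] [Algebra K V] [Algebra K Φ] [IsScalarTower K V Φ],
    Function.Bijective (map (IsScalarTower.toAlgHom K V Φ))

attribute [instance] AVModel.grp AVModel.isLocalRing_O AVModel.ufd_O

end Fermat.Agent.S26
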