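import Fermat.Agent.S26.Model.Basic
import Fermat.Agent.S26.Curve.Spec

/-! # S26 / M6 : pull-back of a prime divisor of `A` to curves.  Definitions + REQUIRED API. -/

set_option autoImplicit false

universe u

namespace Fermat.Agent.S26

open AlgebraicCurve IsLocalRing

namespace AVModel

variable {K : Type u} [Field K] {F : Type u} [Field F] [Algebra K F] (M : AVModel K F)

/-- `ζ` is the generic point of a prime divisor `D` of `A`. -/
def IsPrimeDivisor (ζ : M.X) : Prop := M.dim ζ + 1 = M.g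

/-- Local equations: `𝔪_ζ ∩ O a` is a principal prime ideal of the UFD `O a` (take a prime factor `π` of a
nonzero element; `(π) ⊆ 𝔪_ζ ∩ O a` and both have dimension `g - 1`, use `dim_lt_of_le_of_ne`). -/
theorem exists_locEq (ζ : M.X) (hζ : M.IsPrimeDivisor ζ) (a : M.X) :
    ∃ s : F, s ∈ M.O a ∧ s ≠ 0 ∧ (¬ M.O a ≤ M.O ζ → s = 1) ∧
      (M.O a ≤ M.O ζ → ∀ r ∈ M.O a, (r = 0 ∨ r⁻¹ ∉ M.O ζ) ↔ ∃ t ∈ M.O a, r = s * t) := by
  by_cases h : M.O a ≤ M.O ζ
  swap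
  · exact ⟨1, one_mem _, one_ne_zero, fun _ => rfl, fun h' => absurd h' h⟩
  let j : M.O a →ₐ[K] M.O ζ := Subalgebra.inclusion h
  let p : Ideal (M.O a) := (maximalIdeal (M.O ζ)).comap j
  have hp : ∀ t : M.O a, t ∉ p ↔ (t : F) ≠ 0 ∧ (t : F)⁻¹ ∈ M.O ζ := by
    intro t
    have h1 := isUnit_subalgebra_iff (j t)
    have h2 : ((j t : M.O ζ) : F) = t := rfl
    rw [h2] at h1
    rw [← h1]
    simp [p]
  have hpprime : p.IsPrime := Ideal.comap_isPrime j _
  have hζgen : ζ ≠ M.genPt := by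
    rintro rfl
    have := M.dim_genPt
    unfold IsPrimeDivisor at hζ
    omega
  have hpbot : p ≠ ⊥ := by
    intro hbot
    apply hζgen
    apply M.O_injective
    rw [M.O_genPt]
    refine eq_top_iff.mpr fun r _ => ?_
    obtain ⟨s, t, ht, hrt⟩ := M.exists_fraction a r
    have htp : t ∉ p := by rw [hbot]; simpa using ht
    obtain ⟨ht0, htinv⟩ := (hp t).mp htp
    have : r = s * (t : F)⁻¹ := by rw [← hrt]; field_simp
    rw [this]
    exact mul_mem (h s.2) htinv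
  obtain ⟨π, hπp, hπ⟩ := Ideal.IsPrime.exists_mem_prime_of_ne_bot hpprime hpbot
  have hπ0 : (π : F) ≠ 0 := fun h0 => hπ.ne_zero (Subtype.ext h0)
  have hspan : (Ideal.span {π}).IsPrime := (Ideal.span_singleton_prime hπ.ne_zero).mpr hπ
  obtain ⟨b, hb⟩ := M.exists_generisation a (Ideal.span {π})
  have hζb : M.O ζ ≤ M.O b := by
    intro r hr
    obtain ⟨s, t, hs, ht, ht0, htinv, rfl⟩ := M.exists_fraction_of_le h r hr
    refine (hb _).mpr ⟨⟨s, hs⟩, ⟨t, ht⟩, ?_, by field_simp⟩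
    intro hmem
    have : (⟨t, ht⟩ : M.O a) ∈ p := by
      obtain ⟨c, hc⟩ := Ideal.mem_span_singleton'.mp hmem
      rw [← hc]
      exact Ideal.mul_mem_left _ _ hπp
    exact ((hp ⟨t, ht⟩).mpr ⟨ht0, htinv⟩) this
  have hπb : (π : F)⁻¹ ∉ M.O b := by
    intro hmem
    obtain ⟨s, t, ht, hst⟩ := (hb _).mp hmem
    apply ht
    rw [Ideal.mem_span_singleton']
    refine ⟨s, Subtype.ext ?_⟩
    push_cast
    rw [← hst]; field_simp
  have hbgen : b ≠ M.genPt := by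
    rintro rfl
    apply hπb
    rw [M.O_genPt]; trivial
  have hbζ : ζ = b := by
    by_contra hne
    have h1 := M.dim_lt_of_le_of_ne hζb hne
    have h2 := M.dim_lt_of_le_of_ne (M.le_O_genPt b) hbgen
    rw [M.dim_genPt] at h2
    unfold IsPrimeDivisor at hζ
    omega
  subst hbζ
  refine ⟨π, π.2, hπ0, fun h' => absurd h h', fun _ r hr => ⟨?_, ?_⟩⟩
  · intro hr'
    by_contra hcon
    have hnot : (⟨r, hr⟩ : M.O a) ∉ Ideal.span {π} := by
      intro hmem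
      obtain ⟨c, hc⟩ := Ideal.mem_span_singleton'.mp hmem
      exact hcon ⟨c, c.2, by rw [mul_comm]; exact (congrArg Subtype.val hc).symm⟩
    have hr0 : r ≠ 0 := by
      rintro rfl
      exact hnot (zero_mem _)
    rcases hr' with h0 | h1
    · exact hr0 h0
    · exact h1 ((hb _).mpr ⟨1, ⟨r, hr⟩, hnot, by simp [hr0]⟩)
  · rintro ⟨t, ht, rfl⟩
    by_contra hcon
    push Not at hcon
    obtain ⟨h0, hinv⟩ := hcon
    have ht0 : t ≠ 0 := right_ne_zero_of_mul h0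
    apply hπb
    have : (π : F)⁻¹ = t * ((π : F) * t)⁻¹ := by field_simp
    rw [this]
    exact mul_mem (h ht) hinv

open Classical in
/-- the chosen local equation `s_a` of `D` at `a` -/
noncomputable def locEq (ζ : M.X) (a : M.X) : F :=
  if hζ : M.IsPrimeDivisor ζ then (M.exists_locEq ζ hζ a).choose else 1

theorem locEq_of_not {ζ : M.X} (hζ : ¬ M.IsPrimeDivisor ζ) (a : M.X) : M.locEq ζ a = 1 := by
  rw [locEq, dif_neg hζ]

theorem locEq_spec {ζ : M.X} (hζ : M.IsPrimeDivisor ζ) (a : M.X) :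
    M.locEq ζ a ∈ M.O a ∧ M.locEq ζ a ≠ 0 ∧ (¬ M.O a ≤ M.O ζ → M.locEq ζ a = 1) ∧
      (M.O a ≤ M.O ζ → ∀ r ∈ M.O a, (r = 0 ∨ r⁻¹ ∉ M.O ζ) ↔ ∃ t ∈ M.O a, r = M.locEq ζ a * t) := by
  rw [locEq, dif_pos hζ]
  exact (M.exists_locEq ζ hζ a).choose_spec

theorem locEq_ne_zero (ζ a : M.X) : M.locEq ζ a ≠ 0 := by
  by_cases hζ : M.IsPrimeDivisor ζ
  · exact (M.locEq_spec hζ a).2.1
  · rw [M.locEq_of_not hζ]; exact one_ne_zero

theorem locEq_mem (ζ a : M.X) : M.locEq ζ a ∈ M.O a := by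
  by_cases hζ : M.IsPrimeDivisor ζ
  · exact (M.locEq_spec hζ a).1
  · rw [M.locEq_of_not hζ]; exact one_mem _

/-- `s_a` is a non-unit of `O ζ` if `O a ≤ O ζ`. -/
theorem locEq_inv_not_mem {ζ : M.X} (hζ : M.IsPrimeDivisor ζ) {a : M.X} (h : M.O a ≤ M.O ζ) :
    (M.locEq ζ a)⁻¹ ∉ M.O ζ := by
  have := ((M.locEq_spec hζ a).2.2.2 h _ (M.locEq_mem ζ a)).mpr ⟨1, one_mem _, (mul_one _).symm⟩
  exact this.resolve_left (M.locEq_ne_zero ζ a)

/-- the Cartier property -/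
theorem locEq_div_mem {ζ a b : M.X} (h : M.O a ≤ M.O b) :
    M.locEq ζ a / M.locEq ζ b ∈ M.O b ∧ M.locEq ζ b / M.locEq ζ a ∈ M.O b := by
  by_cases hζ : M.IsPrimeDivisor ζ
  swap
  · rw [M.locEq_of_not hζ, M.locEq_of_not hζ, div_one]; exact ⟨one_mem _, one_mem _⟩
  have ha0 := M.locEq_ne_zero ζ a
  have hb0 := M.locEq_ne_zero ζ b
  by_cases hb : M.O b ≤ M.O ζ
  · have ha : M.O a ≤ M.O ζ := h.trans hb
    constructor
    · obtain ⟨t, ht, hst⟩ := ((M.locEq_spec hζ b).2.2.2 hb _ (h (M.locEq_mem ζ a))).mp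
        (Or.inr (M.locEq_inv_not_mem hζ ha))
      rw [hst]
      have : M.locEq ζ b * t / M.locEq ζ b = t := by field_simp
      rwa [this]
    · obtain ⟨x, y, hx, hy, hy0, hyinv, hxy⟩ := M.exists_fraction_of_le h _ (M.locEq_mem ζ b)
      have hx0 : x ≠ 0 := by
        rintro rfl
        rw [zero_div] at hxy
        exact hb0 hxy
      obtain ⟨t, ht, hst⟩ := ((M.locEq_spec hζ a).2.2.2 ha x hx).mp (Or.inr (by
        intro hxinv
        apply M.locEq_inv_not_mem hζ hb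
        rw [hxy, inv_div, div_eq_mul_inv]
        exact mul_mem (ha hy) hxinv))
      rw [hxy, hst]
      have : M.locEq ζ a * t / y / M.locEq ζ a = t * y⁻¹ := by field_simp
      rw [this]
      exact mul_mem (h ht) hyinv
  · rw [(M.locEq_spec hζ b).2.2.1 hb, div_one, one_div]
    refine ⟨h (M.locEq_mem ζ a), ?_⟩
    by_cases ha : M.O a ≤ M.O ζ
    swap
    · rw [(M.locEq_spec hζ a).2.2.1 ha, inv_one]; exact one_mem _
    by_contra hcon
    apply hb
    intro r hr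
    obtain ⟨x, y, hx, hy, hy0, hyinv, rfl⟩ := M.exists_fraction_of_le h r hr
    rw [div_eq_mul_inv]
    refine mul_mem (ha hx) ?_
    by_contra hyζ
    obtain ⟨t, ht, hst⟩ := ((M.locEq_spec hζ a).2.2.2 ha y hy).mp (Or.inr hyζ)
    apply hcon
    have ht0 : t ≠ 0 := by
      rintro rfl
      rw [mul_zero] at hst
      exact hy0 hst
    have : (M.locEq ζ a)⁻¹ = t * y⁻¹ := by rw [hst]; field_simp
    rw [this]
    exact mul_mem (h ht) hyinv

/-- `O ζ` is a DVR with uniformiser `s_ζ` -/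
theorem locEq_self_spec {ζ : M.X} (hζ : M.IsPrimeDivisor ζ) (r : F) (hr : r ∈ M.O ζ) :
    (r = 0 ∨ r⁻¹ ∉ M.O ζ) ↔ ∃ t ∈ M.O ζ, r = M.locEq ζ ζ * t :=
  (M.locEq_spec hζ ζ).2.2.2 le_rfl r hr

section DvAux

omit M in
theorem ord_eq_zero_of_mem_of_inv_mem {K 𝕃 : Type*} [Field K] [Field 𝕃] [Algebra K 𝕃] (Q : Place K 𝕃) {f : 𝕃}
    (h1 : f ∈ Q.toValuationSubring) (h2 : f⁻¹ ∈ Q.toValuationSubring) : Q.ord f = 0 := by
  have a := S24.FF.ord_nonneg_of_mem Q h1
  have b := S24.FF.ord_nonneg_of_mem Q h2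
  rw [Q.ord_inv] at b
  omega

/-- `ev x` maps units to units. -/
theorem isUnit_ev {R : Type u} [CommRing R] [Algebra K R] [IsLocalRing R] (x : M.Pt R) {r : F}
    (hr0 : r ≠ 0) (hr : r ∈ M.O (M.ctr x)) (hinv : r⁻¹ ∈ M.O (M.ctr x)) : IsUnit (M.ev x r) := by
  have h2 := M.ev_mul x r r⁻¹ hr hinv
  rw [mul_inv_cancel₀ hr0, M.ev_one] at h2
  exact IsUnit.of_mul_eq_one _ h2.symm

variable {𝕃 : Type u} [Field 𝕃] [Algebra K 𝕃]

/-- the value at `z` of a unit at the centre of `z` at `Q` is a `Q`-unit. -/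
theorem ord_ev_eq_zero (z : M.Pt 𝕃) (Q : Place K 𝕃) {r : F} (hr0 : r ≠ 0) (hr : r ∈ M.O (M.cen Q z))
    (hinv : r⁻¹ ∈ M.O (M.cen Q z)) : Q.ord (M.ev z r) = 0 := by
  have hu := M.isUnit_ev (M.lift Q z) hr0 hr hinv
  rw [← M.ev_lift Q z r hr]
  exact Q.ord_coe_unit hu.unit

theorem locEq_div_ne_zero (ζ a b : M.X) : M.locEq ζ a / M.locEq ζ b ≠ 0 :=
  div_ne_zero (M.locEq_ne_zero ζ a) (M.locEq_ne_zero ζ b)

theorem ev_locEq_div_ne_zero (ζ : M.X) (z : M.Pt 𝕃) {a : M.X} (h : M.O a ≤ M.O (M.ctr z)) :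
    M.ev z (M.locEq ζ a / M.locEq ζ (M.ctr z)) ≠ 0 := by
  have h1 := M.locEq_div_mem (ζ := ζ) h
  refine (M.isUnit_ev z (M.locEq_div_ne_zero ζ _ _) h1.1 ?_).ne_zero
  rw [inv_div]; exact h1.2

/-- field-valued points agreeing on a common local ring are equal -/
theorem pt_ext_of_le (z z' : M.Pt 𝕃) (b : M.X) (h : M.O b ≤ M.O (M.ctr z))
    (h' : M.O b ≤ M.O (M.ctr z')) (hev : ∀ r ∈ M.O b, M.ev z r = M.ev z' r) : z = z' := by
  have key : ∀ (z z' : M.Pt 𝕃), M.O b ≤ M.O (M.ctr z) → M.O b ≤ M.O (M.ctr z') →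
      (∀ r ∈ M.O b, M.ev z r = M.ev z' r) →
      ∀ r ∈ M.O (M.ctr z), r ∈ M.O (M.ctr z') ∧ M.ev z r = M.ev z' r := by
    intro z z' h h' hev r hr
    obtain ⟨s, t, hs, ht, ht0, htinv, rfl⟩ := M.exists_fraction_of_le h r hr
    have hu := (M.isUnit_ev z ht0 (h ht) htinv).ne_zero
    have hu' : M.ev z' t ≠ 0 := by rw [← hev t ht]; exact hu
    obtain ⟨h1, h2⟩ := M.ev_inv z t (h ht) hu
    obtain ⟨h1', h2'⟩ := M.ev_inv z' t (h' ht) hu'
    rw [div_eq_mul_inv]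
    refine ⟨mul_mem (h' hs) h1', ?_⟩
    rw [M.ev_mul z _ _ (h hs) h1, M.ev_mul z' _ _ (h' hs) h1', h2, h2', hev s hs, hev t ht]
  apply M.pt_ext
  · apply M.O_injective
    exact le_antisymm (fun r hr => (key z z' h h' hev r hr).1)
      (fun r hr => (key z' z h' h (fun r hr => (hev r hr).symm) r hr).1)
  · intro r hr; exact (key z z' h h' hev r hr).2

theorem inv_mem_cen (z : M.Pt 𝕃) (Q : Place K 𝕃) {r : F} (hr : r ∈ M.O (M.cen Q z))
    (h0 : M.ev z r ≠ 0) (hinv : (M.ev z r)⁻¹ ∈ Q.toValuationSubring) : r⁻¹ ∈ M.O (M.cen Q z) := by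
  apply M.ev_isUnit (M.lift Q z) r hr
  refine isUnit_iff_exists_inv.mpr ⟨⟨_, hinv⟩, Subtype.ext ?_⟩
  push_cast
  rw [M.ev_lift Q z r hr]
  exact mul_inv_cancel₀ h0

/-- the subalgebra of functions regular at `z(gen)` whose value is `Q`-integral -/
def evSub (z : M.Pt 𝕃) (Q : Place K 𝕃) : Subalgebra K F where
  carrier := {r | r ∈ M.O (M.ctr z) ∧ M.ev z r ∈ Q.toValuationSubring}
  mul_mem' := fun ⟨a1, a2⟩ ⟨b1, b2⟩ => ⟨mul_mem a1 b1, by rw [M.ev_mul z _ _ a1 b1]; exact mul_mem a2 b2⟩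
  add_mem' := fun ⟨a1, a2⟩ ⟨b1, b2⟩ => ⟨add_mem a1 b1, by rw [M.ev_add z _ _ a1 b1]; exact add_mem a2 b2⟩
  algebraMap_mem' := fun c => ⟨Subalgebra.algebraMap_mem _ c, by
    rw [M.ev_algebraMap]; exact Q.algebraMap_mem' c⟩

/-- If `ev z` maps the coordinate ring `R₀ ≤ O (ctr z)` of a chart into `O_Q`, then the centre of `z`
at `Q` lies in the chart. -/
theorem cen_of_chart (z : M.Pt 𝕃) (Q : Place K 𝕃) (R₀ : Subalgebra K F) (hR₀ : R₀ ≤ M.O (M.ctr z))
    (hprime : ∀ q : Ideal R₀, q.IsPrime →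
      ∃ b : M.X, ∀ r : F, r ∈ M.O b ↔ ∃ s t : R₀, t ∉ q ∧ r * t = s)
    (hQ : ∀ r ∈ R₀, M.ev z r ∈ Q.toValuationSubring) :
    R₀ ≤ M.O (M.cen Q z) ∧ ∀ r ∈ M.O (M.cen Q z), ∃ x y : F, x ∈ R₀ ∧ y ∈ R₀ ∧ y ≠ 0 ∧
      y⁻¹ ∈ M.O (M.cen Q z) ∧ r = x / y := by
  let φ : R₀ →ₐ[K] Q.toValuationSubring :=
    { toFun := fun r => ⟨M.ev z r, hQ r r.2⟩
      map_one' := Subtype.ext (M.ev_one z)
      map_mul' := fun a b => Subtype.ext (M.ev_mul z a b (hR₀ a.2) (hR₀ b.2))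
      map_zero' := Subtype.ext (M.ev_zero z)
      map_add' := fun a b => Subtype.ext (M.ev_add z a b (hR₀ a.2) (hR₀ b.2))
      commutes' := fun c => Subtype.ext (M.ev_algebraMap z c) }
  let q' : Ideal R₀ := (maximalIdeal Q.toValuationSubring).comap φ
  have hq' : q'.IsPrime := Ideal.comap_isPrime φ _
  obtain ⟨b, hb⟩ := hprime q' hq'
  have hunit : ∀ t : R₀, t ∉ q' ↔ IsUnit (φ t) := by
    intro t
    simp [q']
  have ht : ∀ t : R₀, t ∉ q' → (t : F) ≠ 0 ∧ M.ev z t ≠ 0 ∧ (M.ev z t)⁻¹ ∈ Q.toValuationSubring ∧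
      (t : F)⁻¹ ∈ M.O (M.ctr z) := by
    intro t htq
    obtain ⟨w, hw⟩ := isUnit_iff_exists_inv.mp ((hunit t).mp htq)
    have hw' : M.ev z t * (w : 𝕃) = 1 := congrArg Subtype.val hw
    have h0 : M.ev z t ≠ 0 := left_ne_zero_of_mul_eq_one hw'
    refine ⟨?_, h0, ?_, (M.ev_inv z t (hR₀ t.2) h0).1⟩
    · intro h
      rw [h, M.ev_zero] at h0
      exact h0 rfl
    · rw [← eq_inv_of_mul_eq_one_right hw']
      exact w.2
  have hfrac : ∀ r ∈ M.O b, ∃ s t : R₀, t ∉ q' ∧ r = s * (t : F)⁻¹ := by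
    intro r hr
    obtain ⟨s, t, htq, hrt⟩ := (hb r).mp hr
    refine ⟨s, t, htq, ?_⟩
    have := (ht t htq).1
    rw [← hrt]; field_simp
  have hba : M.O b ≤ M.O (M.ctr z) := by
    intro r hr
    obtain ⟨s, t, htq, rfl⟩ := hfrac r hr
    exact mul_mem (hR₀ s.2) (ht t htq).2.2.2
  have hevfrac : ∀ s t : R₀, t ∉ q' → M.ev z (s * (t : F)⁻¹) = M.ev z s * (M.ev z t)⁻¹ := by
    intro s t htq
    rw [M.ev_mul z _ _ (hR₀ s.2) (ht t htq).2.2.2, (M.ev_inv z t (hR₀ t.2) (ht t htq).2.1).2]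
  have hbQ : ∀ r ∈ M.O b, M.ev z r ∈ Q.toValuationSubring := by
    intro r hr
    obtain ⟨s, t, htq, rfl⟩ := hfrac r hr
    rw [hevfrac s t htq]
    exact mul_mem (hQ s s.2) (ht t htq).2.2.1
  let ψ : M.O b →ₐ[K] Q.toValuationSubring :=
    { toFun := fun r => ⟨M.ev z r, hbQ r r.2⟩
      map_one' := Subtype.ext (M.ev_one z)
      map_mul' := fun a b => Subtype.ext (M.ev_mul z a b (hba a.2) (hba b.2))
      map_zero' := Subtype.ext (M.ev_zero z)
      map_add' := fun a b => Subtype.ext (M.ev_add z a b (hba a.2) (hba b.2))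
      commutes' := fun c => Subtype.ext (M.ev_algebraMap z c) }
  have hR₀b : R₀ ≤ M.O b := fun r hr =>
    (hb r).mpr ⟨⟨r, hr⟩, 1, fun h1 => hq'.ne_top ((Ideal.eq_top_iff_one q').mpr h1), by simp⟩
  have hψ : IsLocalHom ψ.toRingHom := by
    constructor
    intro r hr
    obtain ⟨s, t, htq, hrst⟩ := hfrac r r.2
    have hs : s ∉ q' := by
      rw [hunit]
      have h1 : φ s = ψ r * φ t := by
        apply Subtype.ext
        change M.ev z s = M.ev z r * M.ev z t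
        rw [hrst, hevfrac s t htq, mul_assoc, inv_mul_cancel₀ (ht t htq).2.1, mul_one]
      rw [h1]
      exact IsUnit.mul hr ((hunit t).mp htq)
    rw [isUnit_subalgebra_iff]
    have hs0 := (ht s hs).1
    have ht0 := (ht t htq).1
    refine ⟨by rw [hrst]; exact mul_ne_zero hs0 (inv_ne_zero ht0), (hb _).mpr ⟨t, s, hs, ?_⟩⟩
    rw [hrst]; field_simp
  obtain ⟨y, hy, hev⟩ := M.exists_pt b ψ hψ
  have hyz : M.bc Q.toValuationSubring 𝕃 y = z :=
    M.pt_ext_of_le _ _ b (by rw [← hy]; exact M.ctr_map_le _ y) hba (fun r hr => by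
      rw [M.ev_map _ y r (hy ▸ hr), hev ⟨r, hr⟩]; rfl)
  have hcen : M.cen Q z = b := by rw [cen, ← hyz, M.lift_bc, hy]
  rw [hcen]
  refine ⟨hR₀b, fun r hr => ?_⟩
  obtain ⟨s, t, htq, rfl⟩ := hfrac r hr
  exact ⟨s, t, s.2, t.2, (ht t htq).1, (hb _).mpr ⟨1, t, htq, by simp [(ht t htq).1]⟩,
    (div_eq_mul_inv _ _).symm⟩

omit [Algebra K 𝕃] in
/-- `D` is principal on an open neighbourhood `{h ≠ 0}` of `a` in a chart. -/
theorem exists_principal_open (ζ a : M.X) (R₀ : Subalgebra K F) (hfg : R₀.FG) (q : Ideal R₀)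
    (hq : q.IsPrime) (hqa : ∀ r : F, r ∈ M.O a ↔ ∃ s t : R₀, t ∉ q ∧ r * t = s) :
    ∃ h : R₀, h ∉ q ∧ ∀ b : M.X, R₀ ≤ M.O b →
      (∀ r ∈ M.O b, ∃ x y : F, x ∈ R₀ ∧ y ∈ R₀ ∧ y ≠ 0 ∧ y⁻¹ ∈ M.O b ∧ r = x / y) →
      (h : F)⁻¹ ∈ M.O b →
      M.locEq ζ b / M.locEq ζ a ∈ M.O b ∧ M.locEq ζ a / M.locEq ζ b ∈ M.O b := by
  have h1q : (1 : R₀) ∉ q := fun h1 => hq.ne_top ((Ideal.eq_top_iff_one q).mpr h1)
  have hne0 : ∀ t : R₀, t ∉ q → (t : F) ≠ 0 := by
    intro t ht h0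
    apply ht
    have : t = 0 := Subtype.ext h0
    rw [this]; exact zero_mem q
  have hR₀ : R₀ ≤ M.O a := fun r hr => (hqa r).mpr ⟨⟨r, hr⟩, 1, h1q, by simp⟩
  by_cases hζ : M.IsPrimeDivisor ζ
  swap
  · refine ⟨1, h1q, fun b _ _ _ => ?_⟩
    rw [M.locEq_of_not hζ, M.locEq_of_not hζ, div_one]; exact ⟨one_mem _, one_mem _⟩
  by_cases ha : M.O a ≤ M.O ζ
  swap
  · -- `a ∉ D`
    obtain ⟨h, hhq, hh⟩ : ∃ h : R₀, h ∉ q ∧ ∀ b : M.X, R₀ ≤ M.O b → (h : F)⁻¹ ∈ M.O b →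
        ¬ M.O b ≤ M.O ζ := by
      by_cases hRζ : R₀ ≤ M.O ζ
      · obtain ⟨r, hr, hrζ⟩ := SetLike.not_le_iff_exists.mp ha
        obtain ⟨s, t, ht, hrt⟩ := (hqa r).mp hr
        refine ⟨t, ht, fun b _ hinv hb => hrζ ?_⟩
        have ht0 := hne0 t ht
        have : r = s * (t : F)⁻¹ := by rw [← hrt]; field_simp
        rw [this]
        exact mul_mem (hRζ s.2) (hb hinv)
      · exact ⟨1, h1q, fun b hb _ hbζ => hRζ (hb.trans hbζ)⟩
    refine ⟨h, hhq, fun b hb _ hinv => ?_⟩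
    rw [(M.locEq_spec hζ a).2.2.1 ha, (M.locEq_spec hζ b).2.2.1 (hh b hb hinv), div_one]
    exact ⟨one_mem _, one_mem _⟩
  -- `a ∈ D`
  have hRζ : R₀ ≤ M.O ζ := hR₀.trans ha
  have : Algebra.FiniteType K R₀ := (Subalgebra.fg_iff_finiteType R₀).mp hfg
  have : IsNoetherianRing R₀ := Algebra.FiniteType.isNoetherianRing K R₀
  let j : R₀ →ₐ[K] M.O ζ := Subalgebra.inclusion hRζ
  let P : Ideal R₀ := (maximalIdeal (M.O ζ)).comap j
  have hP : ∀ t : R₀, t ∉ P ↔ (t : F) ≠ 0 ∧ (t : F)⁻¹ ∈ M.O ζ := by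
    intro t
    have h1 := isUnit_subalgebra_iff (j t)
    have h2 : ((j t : M.O ζ) : F) = t := rfl
    rw [h2] at h1
    rw [← h1]
    simp [P]
  set sa := M.locEq ζ a with hsa
  have hsa0 : sa ≠ 0 := M.locEq_ne_zero ζ a
  -- a common denominator
  have hden : ∀ N : Ideal R₀, N ≤ P → ∃ y : R₀, y ∉ q ∧ ∀ g ∈ N, ∃ x : R₀, (g : F) * y = sa * x := by
    intro N
    refine Submodule.fg_induction (R := R₀) (M := R₀)
      (motive := fun N _ => N ≤ P → ∃ y : R₀, y ∉ q ∧ ∀ g ∈ N, ∃ x : R₀, (g : F) * y = sa * x)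
      ?_ ?_ N (IsNoetherian.noetherian N)
    · intro g₀ hg₀
      have hg₀P : g₀ ∈ P := hg₀ (Submodule.mem_span_singleton_self g₀)
      have h1 : (g₀ : F) = 0 ∨ (g₀ : F)⁻¹ ∉ M.O ζ := by
        by_contra hcon
        push Not at hcon
        exact (hP g₀).mpr hcon hg₀P
      obtain ⟨t, ht, hgt⟩ := ((M.locEq_spec hζ a).2.2.2 ha _ (hR₀ g₀.2)).mp h1
      obtain ⟨x, y, hy, hty⟩ := (hqa t).mp ht
      refine ⟨y, hy, fun g hg => ?_⟩
      obtain ⟨c, rfl⟩ := Submodule.mem_span_singleton.mp hg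
      refine ⟨c * x, ?_⟩
      simp only [smul_eq_mul]
      push_cast
      rw [hgt, ← hty]; ring
    · intro N₁ N₂ _ _ h₁ h₂ hle
      obtain ⟨y₁, hy₁, hx₁⟩ := h₁ (le_sup_left.trans hle)
      obtain ⟨y₂, hy₂, hx₂⟩ := h₂ (le_sup_right.trans hle)
      refine ⟨y₁ * y₂, fun hmem => (hq.mem_or_mem hmem).elim hy₁ hy₂, fun g hg => ?_⟩
      obtain ⟨g₁, hg₁, g₂, hg₂, rfl⟩ := Submodule.mem_sup.mp hg
      obtain ⟨x₁, hx₁⟩ := hx₁ g₁ hg₁
      obtain ⟨x₂, hx₂⟩ := hx₂ g₂ hg₂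
      refine ⟨x₁ * y₂ + x₂ * y₁, ?_⟩
      push_cast
      linear_combination (y₂ : F) * hx₁ + (y₁ : F) * hx₂
  obtain ⟨y, hy, hyP⟩ := hden P le_rfl
  obtain ⟨n, d, hd, hnd⟩ := (hqa sa).mp (M.locEq_mem ζ a)
  have hy0 := hne0 y hy
  have hd0 := hne0 d hd
  refine ⟨d * y, fun hmem => (hq.mem_or_mem hmem).elim hd hy, fun b hb hfrac hinv => ?_⟩
  push_cast at hinv
  have hdinv : (d : F)⁻¹ ∈ M.O b := by
    have : (d : F)⁻¹ = y * ((d : F) * y)⁻¹ := by field_simp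
    rw [this]; exact mul_mem (hb y.2) hinv
  have hyinv : (y : F)⁻¹ ∈ M.O b := by
    have : (y : F)⁻¹ = d * ((d : F) * y)⁻¹ := by field_simp
    rw [this]; exact mul_mem (hb d.2) hinv
  have hsab : sa ∈ M.O b := by
    have : sa = n * (d : F)⁻¹ := by rw [← hnd]; field_simp
    rw [this]; exact mul_mem (hb n.2) hdinv
  have hsb0 := M.locEq_ne_zero ζ b
  by_cases hbζ : M.O b ≤ M.O ζ
  · constructor
    · obtain ⟨x', y', hx', hy', hy'0, hy'inv, hxy⟩ := hfrac _ (M.locEq_mem ζ b)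
      have hx'0 : x' ≠ 0 := by
        rintro rfl
        rw [zero_div] at hxy
        exact hsb0 hxy
      have hx'P : (⟨x', hx'⟩ : R₀) ∈ P := by
        by_contra hcon
        apply M.locEq_inv_not_mem hζ hbζ
        rw [hxy, inv_div, div_eq_mul_inv]
        exact mul_mem (hRζ hy') ((hP _).mp hcon).2
      obtain ⟨x2, hx2⟩ := hyP _ hx'P
      have hx3 : x' * (y : F) = sa * x2 := hx2
      have : M.locEq ζ b / sa = x2 * (y : F)⁻¹ * y'⁻¹ := by
        rw [hxy]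
        field_simp
        linear_combination hx3
      rw [this]
      exact mul_mem (mul_mem (hb x2.2) hyinv) hy'inv
    · obtain ⟨t, ht, hst⟩ := ((M.locEq_spec hζ b).2.2.2 hbζ _ hsab).mp
        (Or.inr (M.locEq_inv_not_mem hζ ha))
      have : sa / M.locEq ζ b = t := by rw [hst]; field_simp
      rwa [this]
  · rw [(M.locEq_spec hζ b).2.2.1 hbζ, div_one, one_div]
    refine ⟨?_, hsab⟩
    obtain ⟨r, hr, hrζ⟩ := SetLike.not_le_iff_exists.mp hbζ
    obtain ⟨x', y', hx', hy', hy'0, hy'inv, rfl⟩ := hfrac r hr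
    have hy'P : (⟨y', hy'⟩ : R₀) ∈ P := by
      by_contra hcon
      apply hrζ
      rw [div_eq_mul_inv]
      exact mul_mem (hRζ hx') ((hP _).mp hcon).2
    obtain ⟨x2, hx2⟩ := hyP _ hy'P
    have hx3 : y' * (y : F) = sa * x2 := hx2
    have : sa⁻¹ = x2 * (y : F)⁻¹ * y'⁻¹ := by
      field_simp
      linear_combination hx3
    rw [this]
    exact mul_mem (mul_mem (hb x2.2) hyinv) hy'inv

omit M in
theorem finite_not_mem_place {Ω 𝕃 : Type*} [Field Ω] [Field 𝕃] [Algebra Ω 𝕃] [FF1 Ω 𝕃] (x : 𝕃) :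
    {Q : Place Ω 𝕃 | x ∉ Q.toValuationSubring}.Finite := by
  by_cases hx : x = 0
  · convert Set.finite_empty
    ext Q
    simp [hx, zero_mem]
  · refine (finite_ord_ne_zero (Ω := Ω) hx).subset fun Q hQ h0 => hQ ?_
    exact S24.FF.mem_of_ord_nonneg Q h0.ge

end DvAux

section Dv

variable {𝕃 : Type u} [Field 𝕃] [Algebra K 𝕃]

/-- The multiplicity at the DVR `Q` of `𝕃` of the pull-back of `D` along `z ∈ A(𝕃)`
(w.r.t. the rational section `1/s_{z(gen)}` of `z^* O(D)`). -/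
noncomputable def Dv (ζ : M.X) (z : M.Pt 𝕃) (Q : Place K 𝕃) : ℤ :=
  Q.ord (M.ev z (M.locEq ζ (M.cen Q z) / M.locEq ζ (M.ctr z)))

/-- (L1) the multiplicity can be computed with the local equation at the centre of any local model. -/
theorem Dv_eq_of_model (ζ : M.X) (z : M.Pt 𝕃) (Q : Place K 𝕃) {B : Type u} [CommRing B] [Algebra K B]
    [IsLocalRing B] (j : B →ₐ[K] Q.toValuationSubring) (zB : M.Pt B)
    (h : M.map ((IsScalarTower.toAlgHom K Q.toValuationSubring 𝕃).comp j) zB = z) :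
    M.Dv ζ z Q = Q.ord (M.ev z (M.locEq ζ (M.ctr zB) / M.locEq ζ (M.ctr z))) := by
  have hl := M.lift_eq_map Q j zB z h
  have hle : M.O (M.ctr zB) ≤ M.O (M.cen Q z) := by
    rw [cen, hl]; exact M.ctr_map_le j zB
  have hc := M.O_cen_le Q z
  have h1 := M.locEq_div_mem (ζ := ζ) hle
  have h2 := M.locEq_div_mem (ζ := ζ) hc
  have h0 := M.locEq_ne_zero ζ (M.cen Q z)
  have e : M.locEq ζ (M.ctr zB) / M.locEq ζ (M.ctr z) =
      (M.locEq ζ (M.ctr zB) / M.locEq ζ (M.cen Q z)) * (M.locEq ζ (M.cen Q z) / M.locEq ζ (M.ctr z)) := by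
    field_simp
  have hu : Q.ord (M.ev z (M.locEq ζ (M.ctr zB) / M.locEq ζ (M.cen Q z))) = 0 :=
    M.ord_ev_eq_zero z Q (M.locEq_div_ne_zero ζ _ _) h1.1 (by rw [inv_div]; exact h1.2)
  have hne : M.ev z (M.locEq ζ (M.ctr zB) / M.locEq ζ (M.cen Q z)) ≠ 0 := by
    refine (M.isUnit_ev z (M.locEq_div_ne_zero ζ _ _) (hc h1.1) ?_).ne_zero
    rw [inv_div]; exact hc h1.2
  rw [e, M.ev_mul z _ _ (hc h1.1) h2.1, Q.ord_mul hne (M.ev_locEq_div_ne_zero ζ z hc), hu, zero_add]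
  rfl

/-- constant points have trivial divisor -/
theorem Dv_bc {Ω : Type u} [Field Ω] [Algebra K Ω] [Algebra Ω 𝕃] [IsScalarTower K Ω 𝕃] (ζ : M.X)
    (x : M.Pt Ω) (Q : Place Ω 𝕃) : M.Dv ζ (M.bc Ω 𝕃 x) (Q.restrictConst K) = 0 := by
  let j : Ω →ₐ[K] (Q.restrictConst K).toValuationSubring :=
    { toFun := fun c => ⟨algebraMap Ω 𝕃 c, Q.algebraMap_mem' c⟩
      map_one' := Subtype.ext (map_one _)
      map_mul' := fun a b => Subtype.ext (map_mul _ a b)
      map_zero' := Subtype.ext (_root_.map_zero _)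
      map_add' := fun a b => Subtype.ext (_root_.map_add _ a b)
      commutes' := fun c => Subtype.ext (IsScalarTower.algebraMap_apply K Ω 𝕃 c).symm }
  have h : M.map ((IsScalarTower.toAlgHom K (Q.restrictConst K).toValuationSubring 𝕃).comp j) x =
      M.bc Ω 𝕃 x := by
    congr 1
  rw [M.Dv_eq_of_model ζ _ _ j x h, M.ctr_map_field, div_self (M.locEq_ne_zero ζ _), M.ev_one,
    Place.ord_one]

/-- (D2) finite support (uses `exists_chart`: `D` is principal on an affine neighbourhood `U` of `z(gen)`,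
and `z(Q) ∈ U` unless `Q` is a pole of one of finitely many generators). -/
theorem finite_Dv_ne_zero {Ω : Type u} [Field Ω] [Algebra K Ω] [Algebra Ω 𝕃] [IsScalarTower K Ω 𝕃]
    [FF1 Ω 𝕃] (ζ : M.X) (z : M.Pt 𝕃) : {Q : Place Ω 𝕃 | M.Dv ζ z (Q.restrictConst K) ≠ 0}.Finite := by
  obtain ⟨R₀, hfg, hprime, q, hq, hqa⟩ := M.exists_chart (M.ctr z)
  have h1q : (1 : R₀) ∉ q := fun h1 => hq.ne_top ((Ideal.eq_top_iff_one q).mpr h1)
  have hR₀ : R₀ ≤ M.O (M.ctr z) := fun r hr => (hqa r).mpr ⟨⟨r, hr⟩, 1, h1q, by simp⟩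
  obtain ⟨h, hhq, hK⟩ := M.exists_principal_open ζ (M.ctr z) R₀ hfg q hq hqa
  have hh0 : (h : F) ≠ 0 := by
    intro h0
    apply hhq
    have : h = 0 := Subtype.ext h0
    rw [this]; exact zero_mem q
  have hhinv : (h : F)⁻¹ ∈ M.O (M.ctr z) := (hqa _).mpr ⟨1, h, hhq, by simp [hh0]⟩
  have hevh : M.ev z h ≠ 0 := (M.isUnit_ev z hh0 (hR₀ h.2) hhinv).ne_zero
  obtain ⟨G, hG⟩ := hfg
  have hfin : ((⋃ g ∈ G, {Q : Place Ω 𝕃 | M.ev z g ∉ Q.toValuationSubring}) ∪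
      {Q : Place Ω 𝕃 | (M.ev z h)⁻¹ ∉ Q.toValuationSubring}).Finite :=
    (Set.Finite.biUnion G.finite_toSet fun g _ => finite_not_mem_place _).union
      (finite_not_mem_place _)
  refine hfin.subset fun Q hQ => ?_
  by_contra hcon
  apply hQ
  simp only [Set.mem_union, Set.mem_iUnion, Set.mem_ofPred_eq, not_or, not_exists, not_not] at hcon
  obtain ⟨hc1, hc2⟩ := hcon
  have hmem : ∀ r ∈ R₀, M.ev z r ∈ (Q.restrictConst K).toValuationSubring := by
    have hle : R₀ ≤ M.evSub z (Q.restrictConst K) := by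
      rw [← hG]
      apply Algebra.adjoin_le
      intro g hg
      exact ⟨hR₀ (hG ▸ Algebra.subset_adjoin hg), hc1 g hg⟩
    exact fun r hr => (hle hr).2
  obtain ⟨c1, c2⟩ := M.cen_of_chart z (Q.restrictConst K) R₀ hR₀ hprime hmem
  have h3 := hK (M.cen (Q.restrictConst K) z) c1 c2 (M.inv_mem_cen z _ (c1 h.2) hevh hc2)
  exact M.ord_ev_eq_zero z _ (M.locEq_div_ne_zero ζ _ _) h3.1 (by rw [inv_div]; exact h3.2)

/-- the divisor `z^* D` -/
noncomputable def divOf {Ω : Type u} [Field Ω] [Algebra K Ω] [Algebra Ω 𝕃] [IsScalarTower K Ω 𝕃]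
    [FF1 Ω 𝕃] (ζ : M.X) (z : M.Pt 𝕃) : Divisor Ω 𝕃 :=
  Finsupp.ofSupportFinite (fun Q => M.Dv ζ z (Q.restrictConst K)) (M.finite_Dv_ne_zero ζ z)

@[simp] theorem divOf_apply {Ω : Type u} [Field Ω] [Algebra K Ω] [Algebra Ω 𝕃] [IsScalarTower K Ω 𝕃]
    [FF1 Ω 𝕃] (ζ : M.X) (z : M.Pt 𝕃) (Q : Place Ω 𝕃) :
    M.divOf ζ z Q = M.Dv ζ z (Q.restrictConst K) := rfl

end Dv

section curveAux

omit M in
/-- corestriction of an algebra homomorphism to the valuation ring of a place -/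
def codPlace {B 𝕃 : Type u} [CommRing B] [Algebra K B] [Field 𝕃] [Algebra K 𝕃] (φ : B →ₐ[K] 𝕃)
    (Q : Place K 𝕃) (h : ∀ b, φ b ∈ Q.toValuationSubring) : B →ₐ[K] Q.toValuationSubring where
  toFun b := ⟨φ b, h b⟩
  map_one' := Subtype.ext (map_one φ)
  map_mul' a b := Subtype.ext (map_mul φ a b)
  map_zero' := Subtype.ext (_root_.map_zero φ)
  map_add' a b := Subtype.ext (_root_.map_add φ a b)
  commutes' c := Subtype.ext (φ.commutes c)

omit M in
@[simp] theorem coe_codPlace {B 𝕃 : Type u} [CommRing B] [Algebra K B] [Field 𝕃] [Algebra K 𝕃]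
    (φ : B →ₐ[K] 𝕃) (Q : Place K 𝕃) (h : ∀ b, φ b ∈ Q.toValuationSubring) (b : B) :
    ((codPlace φ Q h b : Q.toValuationSubring) : 𝕃) = φ b := rfl

omit M in
theorem comp_codPlace {B 𝕃 : Type u} [CommRing B] [Algebra K B] [Field 𝕃] [Algebra K 𝕃]
    (φ : B →ₐ[K] 𝕃) (Q : Place K 𝕃) (h : ∀ b, φ b ∈ Q.toValuationSubring) :
    (IsScalarTower.toAlgHom K Q.toValuationSubring 𝕃).comp (codPlace φ Q h) = φ := rfl

omit M in
theorem isUnit_of_ord_eq_zero {𝕃 : Type u} [Field 𝕃] [Algebra K 𝕃] (Q : Place K 𝕃)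
    (f : Q.toValuationSubring) (h0 : (f : 𝕃) ≠ 0) (h : Q.ord (f : 𝕃) = 0) : IsUnit f := by
  refine isUnit_iff_exists_inv.mpr ⟨⟨(f : 𝕃)⁻¹, ?_⟩, Subtype.ext (mul_inv_cancel₀ h0)⟩
  apply S24.FF.mem_of_ord_nonneg
  rw [Q.ord_inv, h]; simp

end curveAux

section curve

variable [IsAlgClosed K] {Φ FC : Type u} [Field Φ] [Algebra K Φ] [Field FC] [Algebra K FC]

/-- `z = x - α ∈ A(Φ(C))` for `x ∈ A(Φ)`, `α ∈ A(K(C))` -/
noncomputable def zOf (x : M.Pt Φ) (α : M.Pt FC) : M.Pt (CF K Φ FC) :=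
  M.bc Φ (CF K Φ FC) x - M.map (CF.inr K Φ FC) α

/-- the value of `α ∈ A(K(C))` at a `Φ`-rational point of `C` -/
noncomputable def evalC [FF1 K FC] (α : M.Pt FC) : CPt K FC Φ → M.Pt Φ
  | .const c => M.map (Algebra.ofId K Φ) (M.map (resEquiv c).toAlgHom (M.red c α))
  | .gen ι => M.map ι α

section aux

/-- extension of `α ∈ A(K(C))` to a valuation ring of `K(C)` -/
noncomputable def liftKVal (V : KVal K FC) (α : M.Pt FC) : M.Pt V.toValuationSubring :=
  ((M.valuative V.toValuationSubring FC).2 α).choose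

omit [IsAlgClosed K] in
theorem map_liftKVal (V : KVal K FC) (α : M.Pt FC) :
    M.map (IsScalarTower.toAlgHom K V.toValuationSubring FC) (M.liftKVal V α) = α :=
  ((M.valuative V.toValuationSubring FC).2 α).choose_spec

variable (v : Place K Φ) (P : Place v.ResidueField (CF K v.ResidueField FC))

/-- the point `z_P ∈ A(B_P)` -/
noncomputable def zBP (x : M.Pt Φ) (α : M.Pt FC) : M.Pt (BP v P) :=
  M.map (BP.fromO v P) (M.lift v x) - M.map (BP.fromR v P) (M.liftKVal (RP P) α)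

theorem map_toCF_zBP (x : M.Pt Φ) (α : M.Pt FC) :
    M.map (BP.toCF v P) (M.zBP v P x α) = M.zOf x α := by
  rw [zBP, M.map_sub, ← M.map_comp, ← M.map_comp, zOf]
  congr 1
  · have : (BP.toCF v P).comp (BP.fromO v P) = (IsScalarTower.toAlgHom K Φ (CF K Φ FC)).comp
        (IsScalarTower.toAlgHom K v.toValuationSubring Φ) :=
      AlgHom.ext (fun ω => BP.toCF_fromO v P ω)
    rw [this, M.map_comp, M.map_lift]
  · have : (BP.toCF v P).comp (BP.fromR v P) = (CF.inr K Φ FC).comp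
        (IsScalarTower.toAlgHom K (RP P).toValuationSubring FC) :=
      AlgHom.ext (fun a => BP.toCF_fromR v P a)
    rw [this, M.map_comp, M.map_liftKVal]

theorem lift_zOf_of_toCF_mem (x : M.Pt Φ) (α : M.Pt FC) (Q : Place K (CF K Φ FC))
    (hQ : ∀ b, BP.toCF v P b ∈ Q.toValuationSubring) :
    M.lift Q (M.zOf x α) = M.map (codPlace (BP.toCF v P) Q hQ) (M.zBP v P x α) :=
  M.lift_eq_map Q _ _ _ (M.map_toCF_zBP v P x α)

theorem Dv_eq_of_toCF_mem (ζ : M.X) (x : M.Pt Φ) (α : M.Pt FC) (Q : Place K (CF K Φ FC))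
    (hQ : ∀ b, BP.toCF v P b ∈ Q.toValuationSubring) :
    M.Dv ζ (M.zOf x α) Q = Q.ord (M.ev (M.zOf x α)
      (M.locEq ζ (M.ctr (M.zBP v P x α)) / M.locEq ζ (M.ctr (M.zOf x α)))) := by
  have h : M.map ((IsScalarTower.toAlgHom K Q.toValuationSubring (CF K Φ FC)).comp
      (codPlace (BP.toCF v P) Q hQ)) (M.zBP v P x α) = M.zOf x α := M.map_toCF_zBP v P x α
  exact M.Dv_eq_of_model ζ _ Q _ _ h

omit M in
theorem algebraMap_mem_gauss (ω : v.toValuationSubring) :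
    ((IsScalarTower.toAlgHom K Φ (CF K Φ FC)).comp
      (IsScalarTower.toAlgHom K v.toValuationSubring Φ)) ω ∈ (gauss v FC).toValuationSubring := by
  apply S24.FF.mem_of_ord_nonneg
  change 0 ≤ (gauss v FC).ord (algebraMap Φ (CF K Φ FC) ω)
  rw [(gaussData v FC).ord_inl]
  exact S24.FF.ord_nonneg_of_mem v ω.2

/-- the extension of `z` to the Gauss valuation ring -/
noncomputable def zGauss (x : M.Pt Φ) (α : M.Pt FC) : M.Pt (gauss v FC).toValuationSubring :=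
  M.map (codPlace ((IsScalarTower.toAlgHom K Φ (CF K Φ FC)).comp
      (IsScalarTower.toAlgHom K v.toValuationSubring Φ)) (gauss v FC) (algebraMap_mem_gauss v))
    (M.lift v x) -
  M.map (codPlace (CF.inr K Φ FC) (gauss v FC) (gaussData v FC).inr_mem) α

theorem lift_gauss_zOf (x : M.Pt Φ) (α : M.Pt FC) :
    M.lift (gauss v FC) (M.zOf x α) = M.zGauss v x α := by
  have : M.bc (gauss v FC).toValuationSubring (CF K Φ FC) (M.zGauss v x α) = M.zOf x α := by
    rw [zGauss, bc, M.map_sub, ← M.map_comp, ← M.map_comp, comp_codPlace, comp_codPlace, M.map_comp,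
      M.map_lift, zOf]
  rw [← this, M.lift_bc]

theorem map_gaussRed_lift_zOf (x : M.Pt Φ) (α : M.Pt FC) :
    M.map (gaussRed v FC) (M.lift (gauss v FC) (M.zOf x α)) = M.zOf (M.red v x) α := by
  rw [M.lift_gauss_zOf, zGauss, M.map_sub, ← M.map_comp, ← M.map_comp, zOf, red, bc, bc,
    ← M.map_comp]
  congr 2
  · exact AlgHom.ext fun ω => (gaussData v FC).ρ_inl ω _
  · exact AlgHom.ext fun a => (gaussData v FC).ρ_inr a

omit M in
theorem isUnit_of_gaussRed (r : (gauss v FC).toValuationSubring) (h : IsUnit (gaussRed v FC r)) :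
    IsUnit r :=
  (IsLocalHom.of_surjective (gaussRed v FC).toRingHom (gaussData v FC).ρ_surjective).map_nonunit r h

theorem ctr_zOf_red (x : M.Pt Φ) (α : M.Pt FC) :
    M.ctr (M.zOf (M.red v x) α) = M.cen (gauss v FC) (M.zOf x α) := by
  rw [← M.map_gaussRed_lift_zOf]
  exact M.ctr_map_of_isLocalHom _ (isUnit_of_gaussRed v) _

theorem ev_zOf_red (x : M.Pt Φ) (α : M.Pt FC) (r : F) (hr : r ∈ M.O (M.cen (gauss v FC) (M.zOf x α))) :
    M.ev (M.zOf (M.red v x) α) r = gaussRed v FC (M.ev (M.lift (gauss v FC) (M.zOf x α)) r) := by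
  rw [← M.map_gaussRed_lift_zOf]
  exact M.ev_map _ _ r hr

variable [FF1 K FC]

theorem map_red_zBP (x : M.Pt Φ) (α : M.Pt FC) :
    M.lift (P.restrictConst K) (M.zOf (M.red v x) α) = M.map (BP.red v P) (M.zBP v P x α) := by
  apply M.lift_eq_map
  have : (IsScalarTower.toAlgHom K (P.restrictConst K).toValuationSubring
      (CF K v.ResidueField FC)).comp (BP.red v P) =
      (gaussRed v FC).comp (codPlace (B := BP v P) (BP.toCF v P) (gauss v FC) (BP.toCF_mem_gauss v P)) :=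
    AlgHom.ext fun b => (BP.gaussRed_toCF v P b).symm
  rw [this, M.map_comp, ← M.lift_zOf_of_toCF_mem, M.map_gaussRed_lift_zOf]

theorem ctr_zBP (x : M.Pt Φ) (α : M.Pt FC) :
    M.ctr (M.zBP v P x α) = M.cen (P.restrictConst K) (M.zOf (M.red v x) α) := by
  rw [cen, M.map_red_zBP]
  exact (M.ctr_map_of_isLocalHom _ (fun r hr => (BP.isLocalHom_red v P).map_nonunit r hr) _).symm

omit [FF1 K FC] in
theorem O_ctr_zBP_le (x : M.Pt Φ) (α : M.Pt FC) (Q : Place K (CF K Φ FC))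
    (hQ : ∀ b, BP.toCF v P b ∈ Q.toValuationSubring) :
    M.O (M.ctr (M.zBP v P x α)) ≤ M.O (M.cen Q (M.zOf x α)) := by
  rw [cen, M.lift_zOf_of_toCF_mem v P x α Q hQ]
  exact M.ctr_map_le _ _

end aux

/-- (D3) = (L2): specialisation of `z^* D` along a DVR `v` of `Φ`.  Full proof: board topic S26, "M6". -/
theorem Dv_specialise [FF1 K FC] (ζ : M.X) (v : Place K Φ) (x : M.Pt Φ) (α : M.Pt FC) :
    ∃ u : CF K v.ResidueField FC, u ≠ 0 ∧
      ∀ P : Place v.ResidueField (CF K v.ResidueField FC),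
        ∑ᶠ Q : Place Φ (CF K Φ FC), M.Dv ζ (M.zOf x α) (Q.restrictConst K) * imult v Q P =
          M.Dv ζ (M.zOf (M.red v x) α) (P.restrictConst K) + P.ord u := by
  set z := M.zOf x α with hz
  set zb := M.zOf (M.red v x) α with hzb
  set m := M.Dv ζ z (gauss v FC) with hm
  obtain ⟨π, hπ⟩ := S24.FF.exists_ord_eq_one v
  have hπ0 : π ≠ 0 := S24.FF.ne_zero_of_ord_ne_zero v (by rw [hπ]; exact one_ne_zero)
  set πL : CF K Φ FC := algebraMap Φ _ π with hπL
  have hπL0 : πL ≠ 0 := by rw [hπL]; simpa using hπ0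
  have hGπ : (gauss v FC).ord πL = 1 := by rw [hπL, (gaussData v FC).ord_inl, hπ]
  set ab := M.cen (gauss v FC) z with hab
  set U := M.ev z (M.locEq ζ ab / M.locEq ζ (M.ctr z)) with hU
  have hmU : (gauss v FC).ord U = m := rfl
  have hU0 : U ≠ 0 := M.ev_locEq_div_ne_zero ζ z (M.O_cen_le (gauss v FC) z)
  have hpow0 : πL ^ (-m) ≠ 0 := zpow_ne_zero _ hπL0
  have hu₀ord : (gauss v FC).ord (U * πL ^ (-m)) = 0 := by
    rw [(gauss v FC).ord_mul hU0 hpow0, (gauss v FC).ord_zpow, hGπ, hmU]; ring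
  have hu₀mem : U * πL ^ (-m) ∈ (gauss v FC).toValuationSubring :=
    S24.FF.mem_of_ord_nonneg _ hu₀ord.ge
  have hu0 : gaussRed v FC ⟨_, hu₀mem⟩ ≠ 0 :=
    ((isUnit_of_ord_eq_zero (gauss v FC) ⟨_, hu₀mem⟩ (mul_ne_zero hU0 hpow0) hu₀ord).map
      (gaussRed v FC)).ne_zero
  refine ⟨gaussRed v FC ⟨_, hu₀mem⟩, hu0, fun P => ?_⟩
  set aP := M.ctr (M.zBP v P x α) with haP
  set H := M.ev z (M.locEq ζ aP / M.locEq ζ (M.ctr z)) with hH
  have hGH : m = (gauss v FC).ord H :=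
    M.Dv_eq_of_toCF_mem v P ζ x α (gauss v FC) (BP.toCF_mem_gauss v P)
  have hle : M.O aP ≤ M.O ab := M.O_ctr_zBP_le v P x α (gauss v FC) (BP.toCF_mem_gauss v P)
  have hcz : M.O ab ≤ M.O (M.ctr z) := M.O_cen_le (gauss v FC) z
  have hH0 : H ≠ 0 := M.ev_locEq_div_ne_zero ζ z (hle.trans hcz)
  have hford : (gauss v FC).ord (H * πL ^ (-m)) = 0 := by
    rw [(gauss v FC).ord_mul hH0 hpow0, (gauss v FC).ord_zpow, hGπ, ← hGH]; ring
  have hfmem : H * πL ^ (-m) ∈ (gauss v FC).toValuationSubring :=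
    S24.FF.mem_of_ord_nonneg _ hford.ge
  have key := ord_gaussRed_eq_finsum v ⟨_, hfmem⟩ hford
    (fun h => mul_ne_zero hH0 hpow0 (congrArg Subtype.val h)) P
  have hsum : ∑ᶠ Q : Place Φ (CF K Φ FC), Q.ord (H * πL ^ (-m)) * imult v Q P =
      ∑ᶠ Q : Place Φ (CF K Φ FC), M.Dv ζ z (Q.restrictConst K) * imult v Q P := by
    apply finsum_congr
    intro Q
    by_cases hi : imult v Q P = 0
    · rw [hi, mul_zero, mul_zero]
    · congr 1
      rw [Q.ord_mul hH0 hpow0, Q.ord_zpow, hπL, S24.FF.ord_algebraMap, mul_zero, add_zero]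
      exact (M.Dv_eq_of_toCF_mem v P ζ x α (Q.restrictConst K)
        (toCF_mem_of_imult_ne_zero v Q P hi)).symm
  -- the unit `w = s_{a_P}/s_ā` of `O ā`
  have hw := M.locEq_div_mem (ζ := ζ) hle
  have hw0 := M.locEq_div_ne_zero ζ aP ab
  have h2 := M.locEq_div_mem (ζ := ζ) hcz
  have hHU : H = M.ev z (M.locEq ζ aP / M.locEq ζ ab) * U := by
    rw [hH, hU, ← M.ev_mul z _ _ (hcz hw.1) h2.1]
    congr 1
    have := M.locEq_ne_zero ζ ab
    field_simp
  have hρ : gaussRed v FC ⟨_, hfmem⟩ =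
      M.ev zb (M.locEq ζ aP / M.locEq ζ ab) * gaussRed v FC ⟨_, hu₀mem⟩ := by
    rw [hzb, M.ev_zOf_red v x α _ hw.1, ← map_mul]
    congr 1
    apply Subtype.ext
    push_cast
    rw [M.ev_lift (gauss v FC) _ _ hw.1, hHU, mul_assoc]
  have hctr : M.ctr zb = ab := M.ctr_zOf_red v x α
  have hcen : M.cen (P.restrictConst K) zb = aP := (M.ctr_zBP v P x α).symm
  have hevne : M.ev zb (M.locEq ζ aP / M.locEq ζ ab) ≠ 0 := by
    have := M.ev_locEq_div_ne_zero ζ zb (a := aP) (by rw [hctr]; exact hle)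
    rwa [hctr] at this
  rw [← hsum, ← key, hρ, P.ord_mul hevne hu0]
  congr 1
  rw [Dv, hcen, hctr]
  rfl

section aux2

variable [FF1 K FC]

/-- (E) the value of `α` at `p`, computed on any valuation ring of `K(C)` on which `p` is defined. -/
theorem map_eq_evalC (α : M.Pt FC) (p : CPt K FC Φ) (V : KVal K FC)
    (φ : V.toValuationSubring →ₐ[K] Φ)
    (hφ : ∀ a : V.toValuationSubring, ∃ h : CF.inr K Φ FC a ∈ p.place.toValuationSubring,
      p.eval ⟨_, h⟩ = φ a) :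
    M.map φ (M.liftKVal V α) = M.evalC α p := by
  cases p with
  | gen ι =>
    have : φ = ι.comp (IsScalarTower.toAlgHom K V.toValuationSubring FC) := by
      ext a
      obtain ⟨h, he⟩ := hφ a
      rw [← he, CPt.eval_gen_inr]
      rfl
    rw [this, M.map_comp, M.map_liftKVal]
    rfl
  | const c =>
    have hmem : ∀ a : V.toValuationSubring,
        (IsScalarTower.toAlgHom K V.toValuationSubring FC) a ∈ c.toValuationSubring := by
      intro a
      obtain ⟨h, -⟩ := hφ a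
      rw [← traceFC_constPlace (Ω := Φ) c]
      exact h
    have hl : M.lift c α = M.map (codPlace _ c hmem) (M.liftKVal V α) :=
      M.lift_eq_map c _ _ _ (M.map_liftKVal V α)
    have : φ = (Algebra.ofId K Φ).comp ((resEquiv c).toAlgHom.comp
        ((IsScalarTower.toAlgHom K c.toValuationSubring c.ResidueField).comp
          (codPlace _ c hmem))) := by
      ext a
      obtain ⟨h, he⟩ := hφ a
      rw [← he]
      exact CPt.eval_const_inr c (codPlace _ c hmem a) h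
    rw [this, M.map_comp, M.map_comp, M.map_comp, ← hl]
    rfl

omit M in
/-- evaluation at a rational point, as a `K`-algebra homomorphism -/
noncomputable def evalK (p : CPt K FC Φ) : (p.place.restrictConst K).toValuationSubring →ₐ[K] Φ where
  toFun f := p.eval f
  map_one' := map_one p.eval
  map_mul' a b := map_mul p.eval a b
  map_zero' := _root_.map_zero p.eval
  map_add' a b := _root_.map_add p.eval a b
  commutes' c := by
    have : (algebraMap K (p.place.restrictConst K).toValuationSubring c) =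
        algebraMap Φ p.place.toValuationSubring (algebraMap K Φ c) :=
      Subtype.ext (IsScalarTower.algebraMap_apply K Φ (CF K Φ FC) c)
    rw [this]
    exact p.eval.commutes _

omit M in
theorem inl_mem_place (p : CPt K FC Φ) (ω : Φ) :
    (IsScalarTower.toAlgHom K Φ (CF K Φ FC)) ω ∈ (p.place.restrictConst K).toValuationSubring :=
  p.place.algebraMap_mem' ω

omit M in
theorem inr_mem_place (p : CPt K FC Φ) (a : (RP p.place).toValuationSubring) :
    ((CF.inr K Φ FC).comp (IsScalarTower.toAlgHom K (RP p.place).toValuationSubring FC)) a ∈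
      (p.place.restrictConst K).toValuationSubring := a.2

/-- the extension of `z` to the local ring of `C_Φ` at `p` -/
noncomputable def zPlace (x : M.Pt Φ) (α : M.Pt FC) (p : CPt K FC Φ) :
    M.Pt (p.place.restrictConst K).toValuationSubring :=
  M.map (codPlace _ (p.place.restrictConst K) (inl_mem_place p)) x -
    M.map (codPlace _ (p.place.restrictConst K) (inr_mem_place p)) (M.liftKVal (RP p.place) α)

theorem lift_place_zOf (x : M.Pt Φ) (α : M.Pt FC) (p : CPt K FC Φ) :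
    M.lift (p.place.restrictConst K) (M.zOf x α) = M.zPlace x α p := by
  have : M.bc (p.place.restrictConst K).toValuationSubring (CF K Φ FC) (M.zPlace x α p) =
      M.zOf x α := by
    rw [zPlace, bc, M.map_sub, ← M.map_comp, ← M.map_comp, comp_codPlace, comp_codPlace, M.map_comp,
      M.map_liftKVal, zOf]
  rw [← this, M.lift_bc]

theorem map_evalK_zPlace (x : M.Pt Φ) (α : M.Pt FC) (p : CPt K FC Φ) :
    M.map (evalK p) (M.zPlace x α p) = x - M.evalC α p := by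
  rw [zPlace, M.map_sub, ← M.map_comp, ← M.map_comp]
  congr 1
  · have : (evalK p).comp (codPlace _ (p.place.restrictConst K) (inl_mem_place p)) =
        AlgHom.id K Φ := by
      ext ω
      exact p.eval.commutes ω
    rw [this, M.map_id]
  · exact M.map_eq_evalC α p _ _ (fun a => ⟨a.2, rfl⟩)

omit M in
theorem isUnit_of_evalK (p : CPt K FC Φ) (r : (p.place.restrictConst K).toValuationSubring)
    (h : IsUnit (evalK p r)) : IsUnit r :=
  (IsLocalHom.of_surjective (evalK p).toRingHom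
    (fun ω => ⟨algebraMap Φ p.place.toValuationSubring ω, p.eval.commutes ω⟩)).map_nonunit r h

theorem cen_place_zOf (x : M.Pt Φ) (α : M.Pt FC) (p : CPt K FC Φ) :
    M.cen (p.place.restrictConst K) (M.zOf x α) = M.ctr (x - M.evalC α p) := by
  rw [cen, M.lift_place_zOf, ← M.map_evalK_zPlace]
  exact (M.ctr_map_of_isLocalHom _ (isUnit_of_evalK p) _).symm

theorem isGeneric_zOf (x : M.Pt Φ) (α : M.Pt FC) (p : CPt K FC Φ)
    (hgen : M.IsGeneric (x - M.evalC α p)) : M.IsGeneric (M.zOf x α) := by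
  apply M.O_injective
  have h := M.O_cen_le (p.place.restrictConst K) (M.zOf x α)
  rw [M.cen_place_zOf, hgen, M.O_genPt] at h
  rw [M.O_genPt]
  exact top_le_iff.mp h

/-- (F) -/
theorem eval_ev_zOf (x : M.Pt Φ) (α : M.Pt FC) (p : CPt K FC Φ)
    (hgen : M.IsGeneric (x - M.evalC α p)) (r : F) :
    ∃ h : M.ev (M.zOf x α) r ∈ p.place.toValuationSubring,
      p.eval ⟨_, h⟩ = M.ev (x - M.evalC α p) r := by
  have hr : r ∈ M.O (M.cen (p.place.restrictConst K) (M.zOf x α)) := by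
    rw [M.cen_place_zOf, hgen, M.O_genPt]; trivial
  have h1 := M.ev_lift (p.place.restrictConst K) (M.zOf x α) r hr
  have h2 := M.ev_map (evalK p) (M.lift (p.place.restrictConst K) (M.zOf x α)) r hr
  rw [M.lift_place_zOf, M.map_evalK_zPlace, ← M.lift_place_zOf] at h2
  refine ⟨h1 ▸ (M.ev (M.lift (p.place.restrictConst K) (M.zOf x α)) r).2, ?_⟩
  rw [h2]
  change p.eval _ = p.eval _
  congr 1
  exact Subtype.ext h1.symm

end aux2

theorem lift_sub_evalC [FF1 K FC] (v : Place K Φ) (x : M.Pt Φ) (α : M.Pt FC) (p : CPt K FC Φ) :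
    M.lift v (x - M.evalC α p) = M.map (secBP v p) (M.zBP v (redCPt v p).place x α) := by
  apply M.lift_eq_map
  rw [zBP, M.map_sub, ← M.map_comp, ← M.map_comp]
  congr 1
  · have : ((IsScalarTower.toAlgHom K v.toValuationSubring Φ).comp (secBP v p)).comp
        (BP.fromO v (redCPt v p).place) = IsScalarTower.toAlgHom K v.toValuationSubring Φ := by
      ext ω
      exact congrArg Subtype.val (secBP_fromO v p ω)
    rw [this, M.map_lift]
  · refine M.map_eq_evalC α p _ _ (fun a => ?_)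
    have h1 := toCF_mem_place v p (BP.fromR v (redCPt v p).place a)
    have h2 := eval_toCF v p (BP.fromR v (redCPt v p).place a)
    have e := BP.toCF_fromR v (redCPt v p).place a
    refine ⟨e ▸ h1, ?_⟩
    have e' : (⟨CF.inr K Φ FC a, e ▸ h1⟩ : p.place.toValuationSubring) =
        ⟨BP.toCF v (redCPt v p).place (BP.fromR v (redCPt v p).place a), h1⟩ := Subtype.ext e.symm
    rw [e', h2]
    rfl

theorem ctr_zBP_redCPt [FF1 K FC] (v : Place K Φ) (x : M.Pt Φ) (α : M.Pt FC) (p : CPt K FC Φ) :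
    M.ctr (M.zBP v (redCPt v p).place x α) = M.cen v (x - M.evalC α p) := by
  rw [cen, M.lift_sub_evalC]
  exact (M.ctr_map_of_isLocalHom _ (fun r hr => (isLocalHom_secBP v p).map_nonunit r hr) _).symm

/-- (D4): restriction of `z^* D` to a rational section `p`, locally at `v`. -/
theorem Dv_section [FF1 K FC] (ζ : M.X) (v : Place K Φ) (x : M.Pt Φ) (α : M.Pt FC) (p : CPt K FC Φ)
    (hgen : M.IsGeneric (x - M.evalC α p)) :
    M.Dv ζ (x - M.evalC α p) v = M.Dv ζ (M.zOf x α) (gauss v FC) +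
      ∑ᶠ Q : Place Φ (CF K Φ FC), M.Dv ζ (M.zOf x α) (Q.restrictConst K) * jmult v p Q := by
  set z := M.zOf x α with hz
  set zp := x - M.evalC α p with hzp
  set P := (redCPt v p).place with hP
  set aP := M.ctr (M.zBP v P x α) with haP
  have hcen : M.cen v zp = aP := (M.ctr_zBP_redCPt v x α p).symm
  have hzgen : M.ctr z = M.genPt := M.isGeneric_zOf x α p hgen
  have hzpgen : M.ctr zp = M.genPt := hgen
  set H := M.ev z (M.locEq ζ aP / M.locEq ζ (M.ctr z)) with hH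
  obtain ⟨hHmem, hHeval⟩ := M.eval_ev_zOf x α p hgen (M.locEq ζ aP / M.locEq ζ (M.ctr z))
  have hne : M.ev zp (M.locEq ζ aP / M.locEq ζ (M.ctr z)) ≠ 0 := by
    have := M.ev_locEq_div_ne_zero ζ zp (a := aP) (by rw [hzpgen]; exact M.le_O_genPt _)
    rwa [hzpgen, ← hzgen] at this
  have hf0 : (⟨H, hHmem⟩ : p.place.toValuationSubring) ≠ 0 := by
    intro h0
    rw [h0, _root_.map_zero] at hHeval
    exact hne hHeval.symm
  have hford : p.place.ord H = 0 := by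
    have h1 : 0 ≤ p.place.ord H := S24.FF.ord_nonneg_of_mem p.place hHmem
    have h2 : ¬ (0 < p.place.ord H) := fun hpos =>
      hne (hHeval ▸ (p.eval_eq_zero_iff ⟨H, hHmem⟩).mpr (Or.inr hpos))
    omega
  have key := ord_eval_eq v p ⟨H, hHmem⟩ hford hf0
  rw [hHeval] at key
  have hL : M.Dv ζ zp v = v.ord (M.ev zp (M.locEq ζ aP / M.locEq ζ (M.ctr z))) := by
    rw [Dv, hcen, hzpgen, hzgen]
  have hG : M.Dv ζ z (gauss v FC) = (gauss v FC).ord H :=
    M.Dv_eq_of_toCF_mem v P ζ x α (gauss v FC) (BP.toCF_mem_gauss v P)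
  have hsum : ∑ᶠ Q : Place Φ (CF K Φ FC), M.Dv ζ z (Q.restrictConst K) * jmult v p Q =
      ∑ᶠ Q : Place Φ (CF K Φ FC), Q.ord H * jmult v p Q := by
    apply finsum_congr
    intro Q
    by_cases hj : jmult v p Q = 0
    · rw [hj, mul_zero, mul_zero]
    · congr 1
      exact M.Dv_eq_of_toCF_mem v P ζ x α (Q.restrictConst K)
        (toCF_mem_of_imult_ne_zero v Q P (imult_ne_zero_of_jmult_ne_zero v p Q hj))
  rw [hL, hG, hsum]
  exact key

/-- `p ∉ supp z^*D` if `z(p)` is generic. -/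
theorem Dv_place_eq_zero [FF1 K FC] (ζ : M.X) (x : M.Pt Φ) (α : M.Pt FC) (p : CPt K FC Φ)
    (hgen : M.IsGeneric (x - M.evalC α p)) : M.Dv ζ (M.zOf x α) (p.place.restrictConst K) = 0 := by
  rw [Dv, M.cen_place_zOf, hgen, M.isGeneric_zOf x α p hgen, div_self (M.locEq_ne_zero ζ _), M.ev_one,
    Place.ord_one]

end curve

end AVModel

end Fermat.Agent.S26
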